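import Mathlib
import Fermat.Agent.ModPoly.BaseCase

/-!
# The prime modular polynomial at a point, and elementary degree lemmas
-/

set_option autoImplicit false

noncomputable section

open ModularCurve Fermat.Agent.ModPoly Polynomial

namespace Fermat.Agent.ModDeg

section Phi

variable (p : ℕ) [hp : Fact p.Prime]

/-- `Φ_p(X, y)` for `y` in any commutative ring. -/
def phi {A : Type*} [CommRing A] (y : A) : A[X] :=
  (modPoly p).map (Polynomial.eval₂RingHom (Int.castRingHom A) y)

theorem phi_map {A B : Type*} [CommRing A] [CommRing B] (σ : A →+* B) (y : A) :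
    (phi p y).map σ = phi p (σ y) := by
  rw [phi, phi, Polynomial.map_map]
  congr 1
  ext H
  · simp
  · simp

theorem phi_monic {A : Type*} [CommRing A] (y : A) : (phi p y).Monic := (modPoly_monic p).map _

theorem phi_natDegree {A : Type*} [CommRing A] [Nontrivial A] (y : A) :
    (phi p y).natDegree = p + 1 := by
  rw [phi, (modPoly_monic p).natDegree_map, modPoly_natDegree]

variable {p} {K : Type*} [Field K] {v : Kˣ} (hv : IsPrimitiveRoot v p)

include hv in
theorem phi_qExpand : phi p (qExpand K p (jqModC K)) =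
    ∏ i, (X - C (jT K p v i)) := by
  rw [← modPoly_map p (isRoot_of_primitive hv), phi]
  congr 1
  ext H
  · simp [evV, evJ]
  · simp [evV, evJ]

include hv in
/-- `Φ_p(j(q^p), j(q)) = 0` -/
theorem eval_phi_jq : (phi p (jqModC K)).eval (qExpand K p (jqModC K)) = 0 := by
  apply qExpand_injective p
  rw [← Polynomial.eval₂_hom, ← Polynomial.eval_map, phi_map, phi_qExpand hv, map_zero,
    Polynomial.eval_prod]
  refine Finset.prod_eq_zero (Finset.mem_univ none) ?_
  simp [jT, conjL]

theorem jT_zero : jT K p v (some ⟨0, hp.out.pos⟩) = jqModC K := by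
  simp [jT, conjL, twist_one]

include hv in
/-- `Φ_p(j(q), j(q^p)) = 0` -/
theorem eval_phi_qExpand_jq : (phi p (qExpand K p (jqModC K))).eval (jqModC K) = 0 := by
  rw [phi_qExpand hv, Polynomial.eval_prod]
  refine Finset.prod_eq_zero (Finset.mem_univ (some ⟨0, hp.out.pos⟩)) ?_
  rw [jT_zero]
  simp

include hv in
/-- transport of the previous root relations along any ring hom -/
theorem eval_phi_of_hom {B : Type*} [CommRing B] (σ : LaurentSeries K →+* B) :
    (phi p (σ (jqModC K))).eval (σ (qExpand K p (jqModC K))) = 0 := by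
  rw [← phi_map, Polynomial.eval_map, Polynomial.eval₂_hom, eval_phi_jq hv, map_zero]

include hv in
theorem eval_phi_of_hom' {B : Type*} [CommRing B] (σ : LaurentSeries K →+* B) :
    (phi p (σ (qExpand K p (jqModC K)))).eval (σ (jqModC K)) = 0 := by
  rw [← phi_map, Polynomial.eval_map, Polynomial.eval₂_hom, eval_phi_qExpand_jq hv, map_zero]

end Phi

section Order

variable {K : Type*} [Field K]

/-- A finite sum of Laurent series, the nonzero ones having pairwise distinct orders, and not all
zero, is nonzero. -/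
theorem sum_ne_zero_of_order_injOn {ι : Type*} [DecidableEq ι] (s : Finset ι)
    (f : ι → LaurentSeries K)
    (h0 : ∃ i ∈ s, f i ≠ 0)
    (hinj : ∀ i ∈ s, ∀ j ∈ s, f i ≠ 0 → f j ≠ 0 → (f i).order = (f j).order → i = j) :
    ∑ i ∈ s, f i ≠ 0 := by
  classical
  obtain ⟨i0, hi0, hfi0⟩ := h0
  obtain ⟨m, hm, hmin⟩ := Finset.exists_min_image (s.filter fun i => f i ≠ 0)
    (fun i => (f i).order) ⟨i0, by simp [hi0, hfi0]⟩
  rw [Finset.mem_filter] at hm
  intro hsum
  have h1 : (∑ i ∈ s, f i).coeff (f m).order = (f m).coeff (f m).order := by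
    rw [HahnSeries.coeff_sum, Finset.sum_eq_single m]
    · intro b hb hbm
      by_cases hfb : f b = 0
      · rw [hfb, HahnSeries.coeff_zero]
      · apply HahnSeries.coeff_eq_zero_of_lt_order
        refine lt_of_le_of_ne (hmin b (by simp [hb, hfb])) fun h => hbm ?_
        exact (hinj m hm.1 b hb hm.2 hfb h).symm
    · intro h
      exact absurd hm.1 h
  rw [hsum, HahnSeries.coeff_zero] at h1
  exact (HahnSeries.coeff_order_eq_zero.not.mpr hm.2) h1.symm

variable (p : ℕ) [hp : Fact p.Prime]

/-- If `x` has order `-1`, `P ≠ 0` has coefficients in `K((q^p))`, and `P(x) = 0`, then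
`deg P ≥ p`. -/
theorem le_natDegree_of_eval_eq_zero {x : LaurentSeries K} (hx : x.order = -1)
    {P : (LaurentSeries K)[X]} (hP : P ≠ 0)
    (hc : ∀ k, ∃ c, P.coeff k = qExpand K p c) (h : P.eval x = 0) : p ≤ P.natDegree := by
  by_contra hlt
  push Not at hlt
  have hx0 : x ≠ 0 := by
    rintro rfl
    rw [HahnSeries.order_zero] at hx
    omega
  rw [Polynomial.eval_eq_sum_range] at h
  refine sum_ne_zero_of_order_injOn (Finset.range (P.natDegree + 1))
    (fun i => P.coeff i * x ^ i) ⟨P.natDegree, by simp, ?_⟩ ?_ h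
  · exact mul_ne_zero (by simpa using hP) (pow_ne_zero _ hx0)
  · intro i hi j hj hi0 hj0 hij
    rw [Finset.mem_range] at hi hj
    have key : ∀ k, P.coeff k * x ^ k ≠ 0 →
        ∃ c : ℤ, (P.coeff k * x ^ k).order = c * p - k := by
      intro k hk
      obtain ⟨c, hck⟩ := hc k
      refine ⟨c.order, ?_⟩
      rw [HahnSeries.order_mul (left_ne_zero_of_mul hk) (right_ne_zero_of_mul hk), hck,
        order_qExpand, HahnSeries.order_pow, hx]
      simp only [smul_neg, nsmul_eq_mul, mul_one]
      ring
    obtain ⟨c, hci⟩ := key i hi0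
    obtain ⟨d, hdj⟩ := key j hj0
    rw [hci, hdj] at hij
    have h1 : (p : ℤ) ∣ (i : ℤ) - j := ⟨c - d, by linarith⟩
    have h2 : (i : ℤ) - j = 0 := by
      apply Int.eq_zero_of_abs_lt_dvd h1
      rw [abs_lt]
      constructor <;> omega
    omega

end Order

end Fermat.Agent.ModDeg
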