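import Mathlib
import Fermat.Agent.ModDeg.Phi

/-!
# Degrees of the elementary steps
-/

set_option autoImplicit false

noncomputable section

open ModularCurve Fermat.Agent.ModPoly Polynomial

namespace Fermat.Agent.ModDeg

section General

variable {K L M : Type*} [Field K] [Field L] [Field M] [Algebra K L]

/-- A nonconstant divisor of a product of linear factors has one of the roots. -/
theorem exists_root_of_dvd_prod {ι : Type*} (s : Finset ι) (r : ι → M) {Q : M[X]}
    (hQ : Q ∣ ∏ i ∈ s, (X - C (r i))) (hdeg : Q.natDegree ≠ 0) : ∃ i ∈ s, Q.eval (r i) = 0 := by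
  have hprod : (∏ i ∈ s, (X - C (r i))) ≠ 0 := Finset.prod_ne_zero_iff.mpr fun i _ =>
    Polynomial.X_sub_C_ne_zero _
  have hs : Q.Splits := Polynomial.Splits.of_dvd
    (Polynomial.Splits.prod fun i _ => Polynomial.Splits.X_sub_C _) hprod hQ
  obtain ⟨a, ha⟩ := hs.exists_eval_eq_zero (fun h => hdeg (Polynomial.natDegree_eq_of_degree_eq_some h))
  have h1 : (∏ i ∈ s, (X - C (r i))).eval a = 0 := Polynomial.eval_eq_zero_of_dvd_of_eval_eq_zero hQ ha
  rw [Polynomial.eval_prod, Finset.prod_eq_zero_iff] at h1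
  obtain ⟨i, hi, h2⟩ := h1
  rw [Polynomial.eval_sub, Polynomial.eval_X, Polynomial.eval_C, sub_eq_zero] at h2
  exact ⟨i, hi, h2 ▸ ha⟩

variable (E : IntermediateField K L)

/-- the modular polynomial over an intermediate field -/
theorem map_phi_intermediate (p : ℕ) [Fact p.Prime] {y : L} (hy : y ∈ E) :
    (phi p (⟨y, hy⟩ : E)).map (algebraMap E L) = phi p y := by
  rw [phi_map]; rfl

theorem aeval_phi_intermediate (p : ℕ) [Fact p.Prime] {y x : L} (hy : y ∈ E) :
    aeval x (phi p (⟨y, hy⟩ : E)) = (phi p y).eval x := by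
  rw [← map_phi_intermediate E p hy, Polynomial.eval_map, Polynomial.aeval_def]

theorem isIntegral_of_eval_phi (p : ℕ) [Fact p.Prime] {y x : L} (hy : y ∈ E)
    (h : (phi p y).eval x = 0) : IsIntegral E x :=
  ⟨phi p (⟨y, hy⟩ : E), phi_monic p _, by
    rw [← Polynomial.aeval_def, aeval_phi_intermediate, h]⟩

theorem minpoly_dvd_phi (p : ℕ) [Fact p.Prime] {y x : L} (hy : y ∈ E)
    (h : (phi p y).eval x = 0) : minpoly E x ∣ phi p (⟨y, hy⟩ : E) :=
  minpoly.dvd _ _ (by rw [aeval_phi_intermediate, h])

theorem natDegree_minpoly_le (p : ℕ) [Fact p.Prime] {y x : L} (hy : y ∈ E)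
    (h : (phi p y).eval x = 0) : (minpoly E x).natDegree ≤ p + 1 := by
  rw [← phi_natDegree p (⟨y, hy⟩ : E)]
  exact Polynomial.natDegree_le_of_dvd (minpoly_dvd_phi E p hy h) (phi_monic p _).ne_zero

/-- degree of a simple adjunction as `relfinrank` -/
theorem relfinrank_adjoin_insert {x : L} (hx : IsIntegral E x) :
    IntermediateField.relfinrank E (E ⊔ IntermediateField.adjoin K {x}) =
      (minpoly E x).natDegree := by
  have hle : E ≤ E ⊔ IntermediateField.adjoin K {x} := le_sup_left
  rw [IntermediateField.relfinrank_eq_finrank_of_le hle, ← IntermediateField.adjoin.finrank hx]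
  have h : IntermediateField.extendScalars hle = IntermediateField.adjoin E {x} := by
    apply IntermediateField.restrictScalars_injective K
    rw [IntermediateField.extendScalars_restrictScalars,
      IntermediateField.restrictScalars_adjoin]
    apply le_antisymm
    · rw [sup_le_iff]
      constructor
      · intro y hy
        exact IntermediateField.subset_adjoin _ _ (Or.inl hy)
      · exact IntermediateField.adjoin.mono _ _ _ (by simp)
    · rw [IntermediateField.adjoin_le_iff, Set.union_subset_iff]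
      constructor
      · intro y hy
        exact (le_sup_left : E ≤ _) hy
      · rw [Set.singleton_subset_iff]
        exact (le_sup_right : IntermediateField.adjoin K {x} ≤ _)
          (IntermediateField.mem_adjoin_simple_self K x)
  rw [h]

end General

section Steps

variable {K : Type*} [Field K] {p : ℕ} [hp : Fact p.Prime] {v : Kˣ} (hv : IsPrimitiveRoot v p)

local notation "Vj" => qExpand K p (jqModC K)
local notation "VVj" => qExpand K p (qExpand K p (jqModC K))

include hv in
/-- (L1) -/
theorem natDegree_minpoly_qExpand_jq (E : IntermediateField K (LaurentSeries K))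
    (hj : jqModC K ∈ E) (hn : Vj ∉ E) : (minpoly E Vj).natDegree = p + 1 := by
  have hroot := eval_phi_jq hv
  have hint : IsIntegral E Vj := isIntegral_of_eval_phi E p hj hroot
  refine le_antisymm (natDegree_minpoly_le E p hj hroot) ?_
  have h2 : 2 ≤ (minpoly E Vj).natDegree := by
    rw [minpoly.two_le_natDegree_iff hint]
    rintro ⟨y, hy⟩
    exact hn (hy ▸ y.2)
  -- `P = (X - Vj) Q`
  set P := (minpoly E Vj).map (algebraMap E (LaurentSeries K)) with hP
  have hPmonic : P.Monic := (minpoly.monic hint).map _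
  have hProot : P.IsRoot Vj := by
    rw [Polynomial.IsRoot, hP, Polynomial.eval_map, ← Polynomial.aeval_def, minpoly.aeval]
  obtain ⟨Q, hQ⟩ := Polynomial.dvd_iff_isRoot.mpr hProot
  have hQ0 : Q ≠ 0 := by
    rintro rfl
    rw [mul_zero] at hQ
    exact hPmonic.ne_zero hQ
  have hdegP : P.natDegree = (minpoly E Vj).natDegree := (minpoly.monic hint).natDegree_map _
  have hdegQ : Q.natDegree + 1 = P.natDegree := by
    rw [hQ, Polynomial.natDegree_mul (Polynomial.X_sub_C_ne_zero _) hQ0,
      Polynomial.natDegree_X_sub_C, add_comm]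
  have hPdvd : P ∣ phi p (jqModC K) := by
    rw [hP, ← map_phi_intermediate E p hj]
    exact Polynomial.map_dvd _ (minpoly_dvd_phi E p hj hroot)
  have hQdvd : Q.map (qExpand K p) ∣ ∏ b : Fin p, (X - C (jT K p v (some b))) := by
    have h3 : P.map (qExpand K p) ∣ ∏ i, (X - C (jT K p v i)) := by
      rw [← phi_qExpand hv, ← phi_map]
      exact Polynomial.map_dvd _ hPdvd
    rw [hQ, Polynomial.map_mul, Polynomial.map_sub, Polynomial.map_X, Polynomial.map_C,
      Fintype.prod_option] at h3
    exact (mul_dvd_mul_iff_left (Polynomial.X_sub_C_ne_zero _)).mp h3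
  have hinj : Function.Injective (qExpand K p) := qExpand_injective p
  have hdegQ' : (Q.map (qExpand K p)).natDegree = Q.natDegree :=
    Polynomial.natDegree_map_eq_of_injective hinj _
  obtain ⟨b, -, hb⟩ := exists_root_of_dvd_prod Finset.univ _ hQdvd (by omega)
  have h4 := le_natDegree_of_eval_eq_zero p (order_jT_some b)
    ((Polynomial.map_ne_zero_iff hinj).mpr hQ0) (fun k => ⟨Q.coeff k, Polynomial.coeff_map _ _⟩) hb
  omega

variable (E : IntermediateField K (LaurentSeries K)) (hE : ∀ y ∈ E, ∃ c, y = qExpand K p c)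

include hv hE in
theorem le_natDegree_minpoly_jq (hVj : Vj ∈ E) :
    p ≤ (minpoly E (jqModC K)).natDegree := by
  have hroot := eval_phi_qExpand_jq hv
  have hint : IsIntegral E (jqModC K) := isIntegral_of_eval_phi E p hVj hroot
  rw [← (minpoly.monic hint).natDegree_map (algebraMap E (LaurentSeries K))]
  refine le_natDegree_of_eval_eq_zero p order_jqModC ((minpoly.monic hint).map _).ne_zero
    (fun k => ?_) ?_
  · rw [Polynomial.coeff_map]
    exact hE _ (SetLike.coe_mem _)
  · rw [Polynomial.eval_map, ← Polynomial.aeval_def, minpoly.aeval]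

include hv hE in
/-- (L2) -/
theorem natDegree_minpoly_jq (hVj : Vj ∈ E) (hVVj : VVj ∈ E) :
    (minpoly E (jqModC K)).natDegree = p := by
  refine le_antisymm ?_ (le_natDegree_minpoly_jq hv E hE hVj)
  have hroot : (phi p (⟨Vj, hVj⟩ : E)).IsRoot (⟨VVj, hVVj⟩ : E) := by
    rw [Polynomial.IsRoot]
    apply (algebraMap E (LaurentSeries K)).injective
    rw [map_zero, ← Polynomial.eval₂_hom, ← Polynomial.eval_map, map_phi_intermediate]
    exact eval_phi_of_hom hv (qExpand K p)
  obtain ⟨Q, hQ⟩ := Polynomial.dvd_iff_isRoot.mpr hroot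
  have hmonic := phi_monic p (⟨Vj, hVj⟩ : E)
  have hQ0 : Q ≠ 0 := by
    rintro rfl
    rw [mul_zero] at hQ
    exact hmonic.ne_zero hQ
  have hdeg := phi_natDegree p (⟨Vj, hVj⟩ : E)
  rw [hQ, Polynomial.natDegree_mul (Polynomial.X_sub_C_ne_zero _) hQ0,
    Polynomial.natDegree_X_sub_C] at hdeg
  have hQmap : Q.map (algebraMap E (LaurentSeries K)) =
      ∏ b : Fin p, (X - C (jT K p v (some b))) := by
    have h1 := map_phi_intermediate E p hVj
    rw [hQ, phi_qExpand hv, Polynomial.map_mul, Polynomial.map_sub, Polynomial.map_X,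
      Polynomial.map_C, Fintype.prod_option] at h1
    exact mul_left_cancel₀ (Polynomial.X_sub_C_ne_zero _) h1
  have hQroot : aeval (jqModC K) Q = 0 := by
    rw [Polynomial.aeval_def, ← Polynomial.eval_map, hQmap, Polynomial.eval_prod]
    refine Finset.prod_eq_zero (Finset.mem_univ ⟨0, hp.out.pos⟩) ?_
    rw [jT_zero]
    simp
  have h5 := Polynomial.natDegree_le_of_dvd (minpoly.dvd _ _ hQroot) hQ0
  omega

include hv hE in
/-- (L2') -/
theorem natDegree_minpoly_jq' (hVj : Vj ∈ E) (hVVj : VVj ∉ E) :
    (minpoly E (jqModC K)).natDegree = p + 1 := by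
  have hroot := eval_phi_qExpand_jq hv
  have hint : IsIntegral E (jqModC K) := isIntegral_of_eval_phi E p hVj hroot
  have h1 := natDegree_minpoly_le E p hVj hroot
  have h2 := le_natDegree_minpoly_jq hv E hE hVj
  by_contra hne
  have h3 : (minpoly E (jqModC K)).natDegree = p := by omega
  obtain ⟨R, hR⟩ := minpoly_dvd_phi E p hVj hroot
  have hmonic := phi_monic p (⟨Vj, hVj⟩ : E)
  have hRmonic : R.Monic := (minpoly.monic hint).of_mul_monic_left (hR ▸ hmonic)
  have hdeg := phi_natDegree p (⟨Vj, hVj⟩ : E)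
  rw [hR, (minpoly.monic hint).natDegree_mul hRmonic, h3] at hdeg
  have hR1 := hRmonic.eq_X_add_C (by omega)
  set a : E := -R.coeff 0 with ha
  have hRa : R.eval a = 0 := by
    rw [hR1]
    simp [ha]
  have h4 : (phi p (⟨Vj, hVj⟩ : E)).eval a = 0 := by
    rw [hR, Polynomial.eval_mul, hRa, mul_zero]
  have h5 : (phi p Vj).eval (a : LaurentSeries K) = 0 := by
    have := congrArg (algebraMap E (LaurentSeries K)) h4
    rw [map_zero, ← Polynomial.eval₂_hom, ← Polynomial.eval_map, map_phi_intermediate] at this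
    exact this
  rw [phi_qExpand hv, Polynomial.eval_prod, Finset.prod_eq_zero_iff] at h5
  obtain ⟨i, -, hi⟩ := h5
  rw [Polynomial.eval_sub, Polynomial.eval_X, Polynomial.eval_C, sub_eq_zero] at hi
  obtain ⟨c, hc⟩ := hE _ a.2
  rcases i with _ | b
  · apply hVVj
    have : (a : LaurentSeries K) = VVj := hi
    rw [← this]
    exact a.2
  · have h6 := congrArg HahnSeries.order hi
    rw [order_jT_some, hc, order_qExpand] at h6
    have h7 : (p : ℤ) ∣ 1 := ⟨-c.order, by linarith⟩
    have h8 : (2 : ℤ) ≤ p := by exact_mod_cast hp.out.two_le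
    exact absurd (Int.le_of_dvd one_pos h7) (by omega)

end Steps

end Fermat.Agent.ModDeg
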