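import Mathlib
import Fermat.Agent.ModDeg.Simple

/-!
# Fractional substitutions `q ↦ ζ q^r` into Hahn series, and generation of the function fields
-/

set_option autoImplicit false

noncomputable section

open ModularCurve Fermat.Agent.ModPoly Polynomial

namespace Fermat.Agent.ModDeg

section Hahn

variable {K : Type*} [Field K]

/-- `q ↦ ζ q^r`, from `K((q))` to Hahn series with exponents in `ℚ`. -/
def hs (r : ℚ) (hr : 0 < r) (ζ : Kˣ) : LaurentSeries K →+* HahnSeries ℚ K :=
  (HahnSeries.embDomainRingHom ((AddMonoidHom.mulLeft r).comp (Int.castAddHom ℚ))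
    (by
      intro a b h
      simpa [hr.ne'] using h)
    (fun a b => by
      simp [mul_le_mul_iff_of_pos_left hr])).comp (twist ζ)

variable {r : ℚ} {hr : 0 < r} {ζ : Kˣ}

theorem hs_coeff (F : LaurentSeries K) (k : ℤ) :
    (hs r hr ζ F).coeff (r * k) = ((ζ ^ k : Kˣ) : K) * F.coeff k := by
  rw [← twist_coeff]
  exact HahnSeries.embDomain_coeff

theorem hs_coeff_of_forall_ne (F : LaurentSeries K) {x : ℚ} (hx : ∀ k : ℤ, r * k ≠ x) :
    (hs r hr ζ F).coeff x = 0 := by
  refine HahnSeries.embDomain_of_notMem_range ?_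
  rintro ⟨m, rfl⟩
  exact hx m rfl

theorem hs_congr {r' : ℚ} (hr' : 0 < r') (h : r = r') (ζ ζ' : Kˣ) (h' : ζ = ζ')
    (F : LaurentSeries K) : hs r hr ζ F = hs r' hr' ζ' F := by
  subst h; subst h'; rfl

theorem hs_qExpand (N : ℕ) [hN : NeZero N] (hr' : 0 < r * N) (F : LaurentSeries K) :
    hs r hr ζ (qExpand K N F) = hs (r * N) hr' (ζ ^ N) F := by
  have hN0 : (N : ℚ) ≠ 0 := by exact_mod_cast hN.out
  ext x
  by_cases hx : ∃ k : ℤ, r * k = x
  · obtain ⟨k, rfl⟩ := hx
    rw [hs_coeff]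
    by_cases hk : (N : ℤ) ∣ k
    · obtain ⟨m, rfl⟩ := hk
      rw [qExpand_coeff_mul]
      have h1 : r * ((N * m : ℤ) : ℚ) = (r * N) * m := by push_cast; ring
      rw [h1, hs_coeff, zpow_mul, zpow_natCast]
    · rw [qExpand_coeff_of_not_dvd N _ hk, mul_zero, hs_coeff_of_forall_ne]
      intro m hm
      apply hk
      refine ⟨m, ?_⟩
      have h2 : r * (N * m) = r * k := by rw [← hm]; ring
      have h3 := mul_left_cancel₀ hr.ne' h2
      exact_mod_cast h3.symm
  · push Not at hx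
    rw [hs_coeff_of_forall_ne _ hx, hs_coeff_of_forall_ne]
    intro m hm
    apply hx (N * m)
    rw [← hm]
    push_cast
    ring

theorem hs_twist (u : Kˣ) (F : LaurentSeries K) :
    hs r hr ζ (twist u F) = hs r hr (ζ * u) F := by
  rw [hs, hs, RingHom.comp_apply, RingHom.comp_apply, twist_twist]

theorem hs_jq_coeff_neg : (hs r hr ζ (jqModC K)).coeff (-r) = ((ζ⁻¹ : Kˣ) : K) := by
  have h := hs_coeff (r := r) (hr := hr) (ζ := ζ) (jqModC K) (-1)
  rw [coeff_jqModC_neg_one, mul_one] at h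
  simpa using h

theorem hs_jq_coeff_of_lt {x : ℚ} (hx : x < -r) : (hs r hr ζ (jqModC K)).coeff x = 0 := by
  by_cases h : ∃ k : ℤ, r * k = x
  · obtain ⟨k, rfl⟩ := h
    have hk : k < -1 := by
      by_contra hk
      push Not at hk
      have : (-1 : ℚ) ≤ k := by exact_mod_cast hk
      nlinarith
    rw [hs_coeff, coeff_jqModC_of_lt K hk, mul_zero]
  · push Not at h
    exact hs_coeff_of_forall_ne _ h

theorem hs_jq_inj {r' : ℚ} {hr' : 0 < r'} {ζ' : Kˣ}
    (h : hs r hr ζ (jqModC K) = hs r' hr' ζ' (jqModC K)) : r = r' ∧ ζ = ζ' := by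
  have key : ∀ {r r' : ℚ} {hr : 0 < r} {hr' : 0 < r'} {ζ ζ' : Kˣ},
      hs r hr ζ (jqModC K) = hs r' hr' ζ' (jqModC K) → ¬ r' < r := by
    intro r r' hr hr' ζ ζ' h hlt
    have h1 := congrArg (fun F => F.coeff (-r)) h
    simp only [hs_jq_coeff_neg] at h1
    rw [hs_jq_coeff_of_lt (by linarith)] at h1
    exact Units.ne_zero _ h1
  have hrr : r = r' := le_antisymm (not_lt.mp (key h)) (not_lt.mp (key h.symm))
  subst hrr
  refine ⟨rfl, ?_⟩
  have h1 := congrArg (fun F => F.coeff (-r)) h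
  simp only [hs_jq_coeff_neg] at h1
  exact inv_injective (Units.ext h1)

variable {p : ℕ} [hp : Fact p.Prime] {v : Kˣ} (hv : IsPrimitiveRoot v p)

theorem pos_div_prime {r : ℚ} (hr : 0 < r) (p : ℕ) [hp : Fact p.Prime] : 0 < r / p :=
  div_pos hr (by exact_mod_cast hp.out.pos)

theorem pos_mul_prime {r : ℚ} (hr : 0 < r) (p : ℕ) [hp : Fact p.Prime] : 0 < r * p :=
  mul_pos hr (by exact_mod_cast hp.out.pos)

include hv in
/-- splitting of `Φ_p(X, j(ζ q^r))` -/
theorem phi_hs {η : Kˣ} (hη : η ^ p = ζ) : phi p (hs r hr ζ (jqModC K)) =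
    ∏ i, (X - C (hs (r / p) (pos_div_prime hr p) η (jT K p v i))) := by
  have hp0 : (p : ℚ) ≠ 0 := by exact_mod_cast hp.out.ne_zero
  have h1 : hs r hr ζ (jqModC K) =
      hs (r / p) (pos_div_prime hr p) η (qExpand K p (jqModC K)) := by
    rw [hs_qExpand p (pos_mul_prime (pos_div_prime hr p) p)]
    exact hs_congr _ (by field_simp) _ _ hη.symm _
  rw [h1, ← phi_map, phi_qExpand hv, Polynomial.map_prod]
  simp

theorem hs_jT_none {η : Kˣ} (hη : η ^ p = ζ) :
    hs (r / p) (pos_div_prime hr p) η (jT K p v none) =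
      hs (r * p) (pos_mul_prime hr p) (ζ ^ p) (jqModC K) := by
  have hp0 : (p : ℚ) ≠ 0 := by exact_mod_cast hp.out.ne_zero
  simp only [jT, conjL, RingHom.comp_apply]
  rw [hs_qExpand p (pos_mul_prime (pos_div_prime hr p) p),
    hs_qExpand p (pos_mul_prime (pos_mul_prime (pos_div_prime hr p) p) p), hη]
  exact hs_congr _ (by field_simp) _ _ rfl _

theorem hs_jT_some {η : Kˣ} (b : Fin p) :
    hs r hr η (jT K p v (some b)) = hs r hr (η * v ^ (b : ℕ)) (jqModC K) := by
  simp only [jT, conjL]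
  rw [hs_twist]

include hv in
theorem hs_jT_injective {η : Kˣ} :
    Function.Injective fun i => hs (r / p) (pos_div_prime hr p) η (jT K p v i) := by
  have hp2 : (2 : ℚ) ≤ p := by exact_mod_cast hp.out.two_le
  have h0 : ∀ b : Fin p, hs (r / p) (pos_div_prime hr p) η (jT K p v none) ≠
      hs (r / p) (pos_div_prime hr p) η (jT K p v (some b)) := by
    intro b h
    rw [hs_jT_none (hr := hr) rfl, hs_jT_some] at h
    have h1 := (hs_jq_inj h).1
    rw [eq_div_iff (by linarith), mul_assoc] at h1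
    have h2 : (p : ℚ) * p = 1 := by
      have := mul_left_cancel₀ hr.ne' (h1.trans (mul_one r).symm)
      exact this
    nlinarith
  intro i j h
  rcases i with _ | b <;> rcases j with _ | c
  · rfl
  · exact absurd h (h0 c)
  · exact absurd h.symm (h0 b)
  · simp only [hs_jT_some] at h
    have h1 := mul_left_cancel (hs_jq_inj h).2
    have h2 := hv.pow_inj b.2 c.2 h1
    rw [Fin.ext h2]

include hv in
/-- the roots of `Φ_p(X, j(ζ q^r))` in an extension -/
theorem eval_phi_hs_eq_zero {M : Type*} [CommRing M] [IsDomain M] (ι : HahnSeries ℚ K →+* M)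
    {η : Kˣ} (hη : η ^ p = ζ) {y : M} (h : (phi p (ι (hs r hr ζ (jqModC K)))).eval y = 0) :
    y = ι (hs (r * p) (pos_mul_prime hr p) (ζ ^ p) (jqModC K)) ∨
      ∃ b : ℕ, y = ι (hs (r / p) (pos_div_prime hr p) (η * v ^ b) (jqModC K)) := by
  rw [← phi_map, phi_hs hv hη, Polynomial.map_prod, Polynomial.eval_prod,
    Finset.prod_eq_zero_iff] at h
  obtain ⟨i, -, hi⟩ := h
  rw [Polynomial.map_sub, Polynomial.map_X, Polynomial.map_C, Polynomial.eval_sub,
    Polynomial.eval_X, Polynomial.eval_C, sub_eq_zero] at hi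
  rcases i with _ | b
  · left
    rw [hi, hs_jT_none (hr := hr) hη]
  · right
    exact ⟨b, by rw [hi, hs_jT_some]⟩

end Hahn

section Gcd

variable {K L M : Type*} [Field K] [Field L] [Field M] [Algebra K L]

/-- If `f, g` over `E` have the common root `x`, `f` splits with distinct roots in `M`, and `x` is
the only common root, then `x ∈ E`. -/
theorem mem_of_common_root (E : IntermediateField K L) (ι : L →+* M) {x : L} {f g : E[X]}
    (hf : aeval x f = 0) (hg : aeval x g = 0) {T : Type*} [Fintype T] (r : T → M)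
    (hr : Function.Injective r)
    (hfM : f.map (ι.comp (algebraMap E L)) = ∏ i, (X - C (r i)))
    (h : ∀ i, (g.map (ι.comp (algebraMap E L))).eval (r i) = 0 → r i = ι x) : x ∈ E := by
  classical
  have hprod : (∏ i, (X - C (r i))) ≠ 0 := Finset.prod_ne_zero_iff.mpr fun i _ =>
    Polynomial.X_sub_C_ne_zero _
  have hf0 : f ≠ 0 := by
    rintro rfl
    rw [Polynomial.map_zero] at hfM
    exact hprod hfM.symm
  have hint : IsIntegral E x := by
    rw [← isAlgebraic_iff_isIntegral]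
    exact ⟨f, hf0, hf⟩
  set τ := ι.comp (algebraMap E L) with hτ
  have hev : ∀ q : E[X], (q.map τ).eval (ι x) = ι (aeval x q) := by
    intro q
    rw [hτ, ← Polynomial.map_map, Polynomial.eval_map, Polynomial.eval₂_hom,
      Polynomial.eval_map, Polynomial.aeval_def]
  -- index of `ι x`
  have h0 : ∃ i0, r i0 = ι x := by
    have h1 := hev f
    rw [hf, map_zero, hfM, Polynomial.eval_prod, Finset.prod_eq_zero_iff] at h1
    obtain ⟨i, -, hi⟩ := h1
    rw [Polynomial.eval_sub, Polynomial.eval_X, Polynomial.eval_C, sub_eq_zero] at hi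
    exact ⟨i, hi.symm⟩
  obtain ⟨i0, hi0⟩ := h0
  by_contra hx
  have h2 : 2 ≤ (minpoly E x).natDegree := by
    rw [minpoly.two_le_natDegree_iff hint]
    rintro ⟨y, hy⟩
    exact hx (hy ▸ y.2)
  have hPf : (minpoly E x).map τ ∣ ∏ i, (X - C (r i)) := by
    rw [← hfM]
    exact Polynomial.map_dvd _ (minpoly.dvd _ _ hf)
  have hPg : (minpoly E x).map τ ∣ g.map τ := Polynomial.map_dvd _ (minpoly.dvd _ _ hg)
  have hPx : ((minpoly E x).map τ).IsRoot (ι x) := by
    rw [Polynomial.IsRoot, hev, minpoly.aeval, map_zero]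
  obtain ⟨Q, hQ⟩ := Polynomial.dvd_iff_isRoot.mpr hPx
  have hQ0 : Q ≠ 0 := by
    rintro rfl
    rw [mul_zero] at hQ
    exact ((minpoly.monic hint).map τ).ne_zero hQ
  have hdeg := (minpoly.monic hint).natDegree_map τ
  rw [hQ, Polynomial.natDegree_mul (Polynomial.X_sub_C_ne_zero _) hQ0,
    Polynomial.natDegree_X_sub_C] at hdeg
  have hQdvd : Q ∣ ∏ i ∈ Finset.univ.erase i0, (X - C (r i)) := by
    rw [hQ, ← Finset.mul_prod_erase Finset.univ _ (Finset.mem_univ i0), hi0] at hPf
    exact (mul_dvd_mul_iff_left (Polynomial.X_sub_C_ne_zero _)).mp hPf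
  obtain ⟨i, hi, hi2⟩ := exists_root_of_dvd_prod _ r hQdvd (by omega)
  have h3 : (g.map τ).eval (r i) = 0 := by
    refine Polynomial.eval_eq_zero_of_dvd_of_eval_eq_zero hPg ?_
    rw [hQ, Polynomial.eval_mul, hi2, mul_zero]
  have h4 := h i h3
  rw [← hi0] at h4
  exact (Finset.ne_of_mem_erase hi) (hr h4)

end Gcd

end Fermat.Agent.ModDeg
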