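import Mathlib
import Fermat.Agent.ModDeg.Hahn

/-!
# Generation of the full level-`N` function fields by few elements
-/

set_option autoImplicit false

noncomputable section

open ModularCurve Fermat.Agent.ModPoly Polynomial

namespace Fermat.Agent.ModDeg

section VJ

variable (K : Type*) [Field K]

/-- `j(q^d)`, a total version of `qExpand K d (jqModC K)`. -/
def vj (d : ℕ) : LaurentSeries K :=
  if h : d = 0 then 0 else
    haveI : NeZero d := ⟨h⟩
    qExpand K d (jqModC K)

theorem vj_eq (d : ℕ) [hd : NeZero d] : vj K d = qExpand K d (jqModC K) := by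
  rw [vj, dif_neg hd.out]

theorem vj_one : vj K 1 = jqModC K := by
  rw [vj_eq, qExpand_one_apply]

theorem qExpand_vj (m : ℕ) [hm : NeZero m] (d : ℕ) (hd : d ≠ 0) :
    qExpand K m (vj K d) = vj K (d * m) := by
  have : NeZero d := ⟨hd⟩
  have : NeZero (d * m) := ⟨mul_ne_zero hd hm.out⟩
  have : NeZero (m * d) := ⟨mul_ne_zero hm.out hd⟩
  rw [vj_eq, vj_eq, qExpand_qExpand, qExpand_congr (mul_comm m d)]

theorem vj_mul (m : ℕ) [hm : NeZero m] (d : ℕ) [hd : NeZero d] :
    vj K (d * m) = qExpand K d (qExpand K m (jqModC K)) := by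
  have : NeZero (d * m) := ⟨mul_ne_zero hd.out hm.out⟩
  rw [vj_eq, qExpand_qExpand]

theorem vj_mem_full {d N : ℕ} (hd0 : d ≠ 0) (hd : d ∣ N) :
    vj K d ∈ modularFunctionFieldFullC K N := by
  have : NeZero d := ⟨hd0⟩
  rw [vj_eq]
  exact jqModCd_mem_full K N hd

theorem full_le_iff {N : ℕ} (hN : N ≠ 0) (E : IntermediateField K (LaurentSeries K)) :
    modularFunctionFieldFullC K N ≤ E ↔ ∀ d, d ∣ N → vj K d ∈ E := by
  rw [modularFunctionFieldFullC, IntermediateField.adjoin_le_iff]
  constructor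
  · intro h d hd
    have hd0 : d ≠ 0 := by
      rintro rfl
      exact hN (zero_dvd_iff.mp hd)
    have : NeZero d := ⟨hd0⟩
    rw [vj_eq]
    exact h ⟨d, inferInstance, hd, rfl⟩
  · rintro h x ⟨d, hd0, hd, rfl⟩
    have := h d hd
    rwa [vj_eq] at this

end VJ

section Step

variable {K : Type*} [Field K] {p ℓ : ℕ} [hp : Fact p.Prime] [hℓ : Fact ℓ.Prime]
  {v w : Kˣ} (hv : IsPrimitiveRoot v p) (hw : IsPrimitiveRoot w ℓ)

theorem hs_vj {d : ℕ} (hd : d ≠ 0) (hd' : (0 : ℚ) < d) :
    hs 1 one_pos 1 (vj K d) = hs (d : ℚ) hd' 1 (jqModC K) := by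
  have : NeZero d := ⟨hd⟩
  rw [vj_eq, hs_qExpand d (by simpa using hd')]
  exact hs_congr _ (by simp) _ _ (by simp) _

include hv in
theorem eval_phi_vj {a c : ℕ} (ha : a ≠ 0) (hc : c = a * p) :
    (phi p (vj K a)).eval (vj K c) = 0 := by
  subst hc
  have : NeZero a := ⟨ha⟩
  rw [vj_mul, vj_eq]
  exact eval_phi_of_hom hv (qExpand K a)

include hv in
theorem eval_phi_vj' {a c : ℕ} (hc0 : c ≠ 0) (ha : a = c * p) :
    (phi p (vj K a)).eval (vj K c) = 0 := by
  subst ha
  have : NeZero c := ⟨hc0⟩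
  rw [vj_mul, vj_eq]
  exact eval_phi_of_hom' hv (qExpand K c)

include hv hw in
/-- the basic generation step -/
theorem gen_step (E : IntermediateField K (LaurentSeries K)) {a b c : ℕ} (ha0 : a ≠ 0)
    (hb0 : b ≠ 0) (hc : c = a * ℓ) (hcb : c = b * p ∨ b = c * p) (h1 : a ≠ b * p * ℓ)
    (h2 : a * p ≠ b * ℓ) (ha : vj K a ∈ E) (hb : vj K b ∈ E) : vj K c ∈ E := by
  have hℓ0 : (ℓ : ℚ) ≠ 0 := by exact_mod_cast hℓ.out.ne_zero
  have hp0 : (p : ℚ) ≠ 0 := by exact_mod_cast hp.out.ne_zero
  have hc0 : c ≠ 0 := by rw [hc]; exact mul_ne_zero ha0 hℓ.out.ne_zero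
  have ha' : (0 : ℚ) < a := by exact_mod_cast Nat.pos_of_ne_zero ha0
  have hb' : (0 : ℚ) < b := by exact_mod_cast Nat.pos_of_ne_zero hb0
  have hc' : (0 : ℚ) < c := by exact_mod_cast Nat.pos_of_ne_zero hc0
  have hmap : ∀ (q : ℕ) [Fact q.Prime] (y : LaurentSeries K) (hy : y ∈ E),
      (phi q (⟨y, hy⟩ : E)).map ((hs 1 one_pos 1 : LaurentSeries K →+* _).comp
        (algebraMap E (LaurentSeries K))) = phi q (hs 1 one_pos 1 y) := by
    intro q _ y hy
    rw [phi_map]
    rfl
  refine mem_of_common_root E (hs 1 one_pos 1) (f := phi ℓ (⟨vj K a, ha⟩ : E))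
    (g := phi p (⟨vj K b, hb⟩ : E)) ?_ ?_
    (fun i => hs ((a : ℚ) / ℓ) (pos_div_prime ha' ℓ) 1 (jT K ℓ w i))
    (hs_jT_injective (hr := ha') hw) ?_ ?_
  · rw [aeval_phi_intermediate]
    exact eval_phi_vj hw ha0 hc
  · rw [aeval_phi_intermediate]
    rcases hcb with h | h
    · exact eval_phi_vj hv hb0 h
    · exact eval_phi_vj' hv hc0 h
  · rw [hmap, hs_vj ha0 ha', phi_hs hw (one_pow _)]
  · intro i hi
    rw [hmap, hs_vj hb0 hb'] at hi
    have h3 := eval_phi_hs_eq_zero (hr := hb') hv (RingHom.id _) (one_pow p) hi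
    simp only [RingHom.id_apply] at h3
    rcases i with _ | i
    · rw [hs_jT_none (hr := ha') (one_pow ℓ), hs_vj hc0 hc']
      exact hs_congr _ (by rw [hc]; push_cast; ring) _ _ (by simp) _
    · exfalso
      rw [hs_jT_some] at h3
      rcases h3 with h3 | ⟨m, h3⟩
      · have h4 := (hs_jq_inj h3).1
        rw [div_eq_iff hℓ0] at h4
        exact h1 (by exact_mod_cast h4)
      · have h4 := (hs_jq_inj h3).1
        rw [div_eq_div_iff hℓ0 hp0] at h4
        exact h2 (by exact_mod_cast h4)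

end Step

section Gen

variable {K : Type*} [Field K] {N : ℕ} (hN : N ≠ 0)
  (hroots : ∀ ℓ : ℕ, ℓ.Prime → ℓ ∣ N → ∃ w : Kˣ, IsPrimitiveRoot w ℓ)
  {p : ℕ} [hp : Fact p.Prime] {v : Kˣ} (hv : IsPrimitiveRoot v p)

include hN hroots hv in
/-- (Gen1) -/
theorem full_mul_prime_of_not_dvd (hpN : ¬ p ∣ N) : modularFunctionFieldFullC K (N * p) =
    modularFunctionFieldFullC K N ⊔ IntermediateField.adjoin K {qExpand K p (jqModC K)} := by
  have hNp : N * p ≠ 0 := mul_ne_zero hN hp.out.ne_zero
  have : NeZero N := ⟨hN⟩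
  have : NeZero (N * p) := ⟨hNp⟩
  apply le_antisymm
  · set E := modularFunctionFieldFullC K N ⊔
      IntermediateField.adjoin K {qExpand K p (jqModC K)} with hE
    have hFE : modularFunctionFieldFullC K N ≤ E := le_sup_left
    have hpE : vj K p ∈ E := by
      rw [vj_eq]
      exact (le_sup_right : IntermediateField.adjoin K {qExpand K p (jqModC K)} ≤ E)
        (IntermediateField.mem_adjoin_simple_self K _)
    have key : ∀ e, e ∣ N → vj K (e * p) ∈ E := by
      intro e
      induction e using induction_on_primes with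
      | zero => intro h; exact absurd (zero_dvd_iff.mp h) hN
      | one => intro _; rwa [one_mul]
      | prime_mul ℓ e hℓ ih =>
        intro h
        have heN : e ∣ N := (Dvd.intro_left ℓ rfl).trans h
        have he0 : e ≠ 0 := by rintro rfl; exact hN (zero_dvd_iff.mp heN)
        have hℓN : ℓ ∣ N := (Dvd.intro e rfl).trans h
        have : Fact ℓ.Prime := ⟨hℓ⟩
        obtain ⟨w, hw⟩ := hroots ℓ hℓ hℓN
        have hne : p ≠ ℓ := by rintro rfl; exact hpN hℓN
        refine gen_step hv hw E (a := e * p) (b := ℓ * e) (mul_ne_zero he0 hp.out.ne_zero)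
          (mul_ne_zero hℓ.ne_zero he0) (by ring) (Or.inl rfl) ?_ ?_ (ih heN)
          (hFE (vj_mem_full K (mul_ne_zero hℓ.ne_zero he0) h))
        · intro h3
          have h4 : (e * p) * 1 = (e * p) * (ℓ * ℓ) := by rw [mul_one]; nth_rw 1 [h3]; ring
          have h5 := Nat.eq_of_mul_eq_mul_left (Nat.pos_of_ne_zero
            (mul_ne_zero he0 hp.out.ne_zero)) h4
          nlinarith [hℓ.two_le]
        · intro h3
          have h4 : e * (p ^ 2) = e * (ℓ ^ 2) := by rw [sq, ← mul_assoc, h3]; ring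
          have h5 := Nat.eq_of_mul_eq_mul_left (Nat.pos_of_ne_zero he0) h4
          exact hne (Nat.pow_left_injective two_ne_zero h5)
    rw [full_le_iff K hNp]
    intro d hd
    by_cases hpd : p ∣ d
    · obtain ⟨e, rfl⟩ := hpd
      rw [mul_comm N p] at hd
      rw [mul_comm p e]
      exact key e (Nat.dvd_of_mul_dvd_mul_left hp.out.pos hd)
    · have hcop : Nat.Coprime d p := ((Nat.Prime.coprime_iff_not_dvd hp.out).mpr hpd).symm
      have hdN : d ∣ N := hcop.dvd_of_dvd_mul_right hd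
      exact hFE (vj_mem_full K (by rintro rfl; exact hN (zero_dvd_iff.mp hdN)) hdN)
  · rw [sup_le_iff]
    refine ⟨full_degeneracyC_le K (Dvd.intro p rfl), ?_⟩
    rw [IntermediateField.adjoin_le_iff, Set.singleton_subset_iff]
    exact jqModCd_mem_full K (N * p) (Dvd.intro_left N rfl)

include hN hroots hv in
/-- (Gen2) -/
theorem full_mul_prime_of_dvd : modularFunctionFieldFullC K (N * p) =
    (modularFunctionFieldFullC K N).map (qExpandAlgHomC K p) ⊔
      IntermediateField.adjoin K {jqModC K} := by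
  have hNp : N * p ≠ 0 := mul_ne_zero hN hp.out.ne_zero
  have : NeZero N := ⟨hN⟩
  have : NeZero (N * p) := ⟨hNp⟩
  apply le_antisymm
  · set E := (modularFunctionFieldFullC K N).map (qExpandAlgHomC K p) ⊔
      IntermediateField.adjoin K {jqModC K} with hE
    have hFE : (modularFunctionFieldFullC K N).map (qExpandAlgHomC K p) ≤ E := le_sup_left
    have hjE : vj K 1 ∈ E := by
      rw [vj_one]
      exact (le_sup_right : IntermediateField.adjoin K {jqModC K} ≤ E)
        (IntermediateField.mem_adjoin_simple_self K _)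
    have hmem : ∀ d, d ∣ N → vj K (d * p) ∈ E := by
      intro d hd
      have hd0 : d ≠ 0 := by rintro rfl; exact hN (zero_dvd_iff.mp hd)
      apply hFE
      rw [← qExpand_vj K p d hd0]
      exact ⟨vj K d, vj_mem_full K hd0 hd, rfl⟩
    have key : ∀ e, e ∣ N → ¬ p ∣ e → vj K e ∈ E := by
      intro e
      induction e using induction_on_primes with
      | zero => intro h; exact absurd (zero_dvd_iff.mp h) hN
      | one => intro _ _; exact hjE
      | prime_mul ℓ e hℓ ih =>
        intro h hpe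
        have heN : e ∣ N := (Dvd.intro_left ℓ rfl).trans h
        have he0 : e ≠ 0 := by rintro rfl; exact hN (zero_dvd_iff.mp heN)
        have hℓN : ℓ ∣ N := (Dvd.intro e rfl).trans h
        have : Fact ℓ.Prime := ⟨hℓ⟩
        obtain ⟨w, hw⟩ := hroots ℓ hℓ hℓN
        refine gen_step hv hw E (a := e) (b := ℓ * e * p) (c := ℓ * e) he0
          (mul_ne_zero (mul_ne_zero hℓ.ne_zero he0) hp.out.ne_zero) (by ring) (Or.inr rfl) ?_ ?_
          (ih heN fun h => hpe (h.mul_left ℓ)) (hmem _ h)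
        · intro h3
          have h4 : e * 1 = e * ((ℓ * ℓ) * (p * p)) := by rw [mul_one]; nth_rw 1 [h3]; ring
          have h5 := Nat.eq_of_mul_eq_mul_left (Nat.pos_of_ne_zero he0) h4
          have h6 := hℓ.two_le
          have h7 := hp.out.two_le
          have h8 : 4 ≤ ℓ * ℓ := by nlinarith
          have h9 : 4 ≤ p * p := by nlinarith
          nlinarith
        · intro h3
          have h4 : (e * p) * 1 = (e * p) * (ℓ * ℓ) := by rw [mul_one]; nth_rw 1 [h3]; ring
          have h5 := Nat.eq_of_mul_eq_mul_left (Nat.pos_of_ne_zero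
            (mul_ne_zero he0 hp.out.ne_zero)) h4
          nlinarith [hℓ.two_le]
    rw [full_le_iff K hNp]
    intro d hd
    by_cases hpd : p ∣ d
    · obtain ⟨e, rfl⟩ := hpd
      rw [mul_comm N p] at hd
      rw [mul_comm p e]
      exact hmem e (Nat.dvd_of_mul_dvd_mul_left hp.out.pos hd)
    · have hcop : Nat.Coprime d p := ((Nat.Prime.coprime_iff_not_dvd hp.out).mpr hpd).symm
      exact key d (hcop.dvd_of_dvd_mul_right hd) hpd
  · rw [sup_le_iff]
    refine ⟨full_degeneracyC_map_le K N p, ?_⟩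
    rw [IntermediateField.adjoin_le_iff, Set.singleton_subset_iff]
    exact jqModC_mem_full K (N * p)

end Gen

end Fermat.Agent.ModDeg
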