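import Mathlib
import Fermat.Agent.ModDeg.Gen

/-!
# `j(q^p)` is not in the level-`N` function field when `p ∤ N`
-/

set_option autoImplicit false

noncomputable section

open ModularCurve Fermat.Agent.ModPoly Polynomial
open scoped IntermediateField

namespace Fermat.Agent.ModDeg

section Supp

variable (p : ℕ) [hp : Fact p.Prime]

/-- `p`-integral rationals, as an additive group. -/
def gammaP : AddSubgroup ℚ where
  carrier := {x | padicNorm p x ≤ 1}
  zero_mem' := by simp
  add_mem' := by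
    intro a b ha hb
    exact (padicNorm.nonarchimedean (p := p)).trans (max_le ha hb)
  neg_mem' := by
    intro a ha
    change padicNorm p (-a) ≤ 1
    rw [padicNorm.neg]
    exact ha

theorem mem_gammaP {x : ℚ} : x ∈ gammaP p ↔ padicNorm p x ≤ 1 := Iff.rfl

variable {p}

theorem zmul_mem_gammaP {r : ℚ} (h : r ∈ gammaP p) (k : ℤ) : r * k ∈ gammaP p := by
  rw [mem_gammaP, padicNorm.mul]
  exact mul_le_one₀ h (padicNorm.nonneg _) (padicNorm.of_int k)

theorem mul_prime_mem_gammaP {r : ℚ} {ℓ : ℕ} (h : r ∈ gammaP p) : r * ℓ ∈ gammaP p := by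
  have := zmul_mem_gammaP h ℓ
  exact_mod_cast this

theorem div_prime_mem_gammaP {r : ℚ} {ℓ : ℕ} [hℓ : Fact ℓ.Prime] (hne : p ≠ ℓ)
    (h : r ∈ gammaP p) : r / ℓ ∈ gammaP p := by
  rw [mem_gammaP, padicNorm.div, padicNorm.padicNorm_of_prime_of_ne hne, div_one]
  exact h

theorem one_mem_gammaP : (1 : ℚ) ∈ gammaP p := by
  rw [mem_gammaP, padicNorm.one]

theorem inv_notMem_gammaP : -((1 : ℚ) / p) ∉ gammaP p := by
  rw [mem_gammaP, padicNorm.neg, padicNorm.div, padicNorm.one, padicNorm.padicNorm_p_of_prime,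
    one_div, inv_inv, not_le]
  exact_mod_cast hp.out.one_lt

variable (p) (K : Type*) [Field K]

/-- Hahn series with `p`-integral exponents. -/
def embP : HahnSeries (gammaP p) K →+* HahnSeries ℚ K :=
  HahnSeries.embDomainRingHom (gammaP p).subtype Subtype.val_injective (fun _ _ => Iff.rfl)

variable {K}

theorem embP_coeff (x : HahnSeries (gammaP p) K) (g : gammaP p) :
    (embP p K x).coeff g = x.coeff g := by
  exact HahnSeries.embDomain_coeff (f := ⟨⟨(gammaP p).subtype, Subtype.val_injective⟩, Iff.rfl⟩)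

theorem embP_coeff_of_notMem (x : HahnSeries (gammaP p) K) {g : ℚ} (hg : g ∉ gammaP p) :
    (embP p K x).coeff g = 0 := by
  refine HahnSeries.embDomain_of_notMem_range ?_
  rintro ⟨m, rfl⟩
  exact hg m.2

variable {p}

theorem hs_mem_range_embP {r : ℚ} {hr : 0 < r} {ζ : Kˣ} (h : r ∈ gammaP p)
    (F : LaurentSeries K) : hs r hr ζ F ∈ (embP p K).fieldRange := by
  let f : ℤ →+ gammaP p := AddMonoidHom.mk' (fun k => ⟨r * k, zmul_mem_gammaP h k⟩) (by
    intro a b
    ext
    push_cast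
    ring)
  have hf : ∀ a b : ℤ, f a ≤ f b ↔ a ≤ b := by
    intro a b
    change r * a ≤ r * b ↔ _
    rw [mul_le_mul_iff_of_pos_left hr]
    exact Int.cast_le
  have hfi : Function.Injective f := by
    intro a b hab
    exact le_antisymm ((hf a b).mp hab.le) ((hf b a).mp hab.ge)
  refine ⟨HahnSeries.embDomainRingHom f hfi hf (twist ζ F), ?_⟩
  ext x
  by_cases hx : ∃ k : ℤ, r * k = x
  · obtain ⟨k, rfl⟩ := hx
    have h1 := embP_coeff p (HahnSeries.embDomainRingHom f hfi hf (twist ζ F)) (f k)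
    have h2 : ((f k : gammaP p) : ℚ) = r * k := rfl
    rw [h2] at h1
    rw [h1, hs_coeff, ← twist_coeff]
    exact HahnSeries.embDomain_coeff (f := ⟨⟨f, hfi⟩, hf _ _⟩)
  · push Not at hx
    rw [hs_coeff_of_forall_ne _ hx]
    by_cases hxp : x ∈ gammaP p
    · have h1 := embP_coeff p (HahnSeries.embDomainRingHom f hfi hf (twist ζ F)) ⟨x, hxp⟩
      change (embP p K _).coeff x = _ at h1
      rw [h1]
      refine HahnSeries.embDomain_of_notMem_range ?_
      rintro ⟨m, hm⟩
      exact hx m (congrArg Subtype.val hm)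
    · exact embP_coeff_of_notMem p _ hxp

theorem hs_inv_notMem_range_embP {hr : (0 : ℚ) < 1 / p} {ζ : Kˣ} :
    hs (1 / p) hr ζ (jqModC K) ∉ (embP p K).fieldRange := by
  rintro ⟨y, hy⟩
  have h1 := congrArg (fun F => F.coeff (-(1 / (p : ℚ)))) hy
  simp only [hs_jq_coeff_neg] at h1
  rw [embP_coeff_of_notMem p y inv_notMem_gammaP] at h1
  exact Units.ne_zero _ h1.symm

end Supp

section NotMem

variable {K : Type*} [Field K] [IsAlgClosed K] {N : ℕ} (hN : N ≠ 0)
  (hroots : ∀ ℓ : ℕ, ℓ.Prime → ℓ ∣ N → ∃ w : Kˣ, IsPrimitiveRoot w ℓ)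
  {p : ℕ} [hp : Fact p.Prime] {v : Kˣ} (hv : IsPrimitiveRoot v p)

theorem exists_pow_eq' (ℓ : ℕ) (hℓ : ℓ ≠ 0) (ζ : Kˣ) : ∃ η : Kˣ, η ^ ℓ = ζ := by
  obtain ⟨z, hz⟩ := IsAlgClosed.exists_pow_nat_eq (ζ : K) (Nat.pos_of_ne_zero hℓ)
  have hz0 : z ≠ 0 := by
    rintro rfl
    rw [zero_pow hℓ] at hz
    exact ζ.ne_zero hz.symm
  exact ⟨Units.mk0 z hz0, Units.ext (by simpa using hz)⟩

/-- minimal polynomial of `j(q^p)` over any field containing `j` but not `j(q^p)` -/
theorem minpoly_qExpand_jq {K : Type*} [Field K] {v : Kˣ} (hv : IsPrimitiveRoot v p)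
    (E : IntermediateField K (LaurentSeries K))
    (hj : jqModC K ∈ E) (hn : qExpand K p (jqModC K) ∉ E) :
    minpoly E (qExpand K p (jqModC K)) = phi p (⟨jqModC K, hj⟩ : E) := by
  have hroot := eval_phi_jq hv
  have hint : IsIntegral E (qExpand K p (jqModC K)) := isIntegral_of_eval_phi E p hj hroot
  refine (Polynomial.eq_of_monic_of_dvd_of_natDegree_le (minpoly.monic hint) (phi_monic p _)
    (minpoly_dvd_phi E p hj hroot) ?_).symm
  rw [natDegree_minpoly_qExpand_jq hv E hj hn, phi_natDegree]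

theorem isIntegral_of_eval_phi_of_isIntegral {A L : Type*} [Field A] [Field L] [Algebra A L]
    (ℓ : ℕ) [Fact ℓ.Prime] {x y : L} (hy : IsIntegral A y) (h : (phi ℓ y).eval x = 0) :
    IsIntegral A x := by
  have h2 : IsIntegral A⟮y⟯ x :=
    ⟨phi ℓ (⟨y, IntermediateField.mem_adjoin_simple_self A y⟩ : A⟮y⟯), phi_monic ℓ _, by
      rw [← Polynomial.eval_map, phi_map]; exact h⟩
  have h3 : Algebra.IsIntegral A A⟮y⟯ := by
    have := IntermediateField.isAlgebraic_adjoin_simple hy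
    exact Algebra.IsAlgebraic.isIntegral
  exact isIntegral_trans (A := A⟮y⟯) _ h2

include hN hroots hv in
theorem qExpand_jq_notMem_full_aux (hp0 : (p : K) ≠ 0) (hpN : ¬ p ∣ N)
    {M : Type*} [Field M] [IsAlgClosed M] (ι : HahnSeries ℚ K →+* M) :
    qExpand K p (jqModC K) ∉ modularFunctionFieldFullC K N := by
  intro hmem
  set E0 : IntermediateField K (LaurentSeries K) := IntermediateField.adjoin K {jqModC K} with hE0
  have hj : jqModC K ∈ E0 := IntermediateField.mem_adjoin_simple_self K _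
  set S : Set (LaurentSeries K) := {x | ∃ d, d ∣ N ∧ x = vj K d} with hS
  set F : IntermediateField E0 (LaurentSeries K) := IntermediateField.adjoin E0 S with hF
  have hvjF : ∀ d, d ∣ N → vj K d ∈ F := fun d hd =>
    IntermediateField.subset_adjoin _ _ ⟨d, hd, rfl⟩
  have hmemF : qExpand K p (jqModC K) ∈ F := by
    have h1 : modularFunctionFieldFullC K N ≤ F.restrictScalars K := by
      rw [full_le_iff K hN]
      exact hvjF
    exact h1 hmem
  -- integrality
  have hd0 : ∀ d, d ∣ N → d ≠ 0 := by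
    rintro d hd rfl
    exact hN (zero_dvd_iff.mp hd)
  have hint : ∀ e, e ∣ N → IsIntegral E0 (vj K e) := by
    intro e
    induction e using induction_on_primes with
    | zero => intro h; exact absurd (zero_dvd_iff.mp h) hN
    | one => intro _; rw [vj_one]; exact isIntegral_algebraMap (R := E0) (x := ⟨jqModC K, hj⟩)
    | prime_mul ℓ e hℓ ih =>
      intro h
      have heN : e ∣ N := (Dvd.intro_left ℓ rfl).trans h
      have : Fact ℓ.Prime := ⟨hℓ⟩
      obtain ⟨w, hw⟩ := hroots ℓ hℓ ((Dvd.intro e rfl).trans h)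
      have h1 := eval_phi_vj (K := K) hw (a := e) (c := ℓ * e) (hd0 e heN) (mul_comm _ _)
      exact isIntegral_of_eval_phi_of_isIntegral ℓ (ih heN) h1
  have halg : Algebra.IsAlgebraic E0 F := by
    apply IntermediateField.isAlgebraic_adjoin
    rintro x ⟨d, hd, rfl⟩
    exact hint d hd
  let τ : LaurentSeries K →+* M := ι.comp (hs 1 one_pos 1)
  let _ : Algebra E0 M := (τ.comp (algebraMap E0 (LaurentSeries K))).toAlgebra
  have hαE0 : ∀ x : E0, algebraMap E0 M x = τ x := fun x => rfl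
  have : Module.IsTorsionFree E0 M :=
    Module.isTorsionFree_iff_algebraMap_injective.mpr (algebraMap E0 M).injective
  -- the embedding
  have hminF : minpoly E0 (⟨qExpand K p (jqModC K), hmemF⟩ : F) =
      phi p (⟨jqModC K, hj⟩ : E0) := by
    rw [← minpoly_qExpand_jq hv E0 hj (qExpand_jq_notMem hv hp0)]
    exact (minpoly.algebraMap_eq (algebraMap F (LaurentSeries K)).injective
      (⟨qExpand K p (jqModC K), hmemF⟩ : F)).symm
  have hpos : (0 : ℚ) < 1 / p := pos_div_prime one_pos p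
  have hy : ι (hs (1 / p) hpos 1 (jqModC K)) ∈
      (minpoly E0 (⟨qExpand K p (jqModC K), hmemF⟩ : F)).rootSet M := by
    rw [hminF, Polynomial.mem_rootSet]
    refine ⟨(phi_monic p _).ne_zero, ?_⟩
    rw [Polynomial.aeval_def, ← Polynomial.eval_map, phi_map, hαE0]
    change (phi p (ι (hs 1 one_pos 1 (jqModC K)))).eval _ = 0
    rw [← phi_map, phi_hs hv (one_pow p), Polynomial.map_prod, Polynomial.eval_prod]
    refine Finset.prod_eq_zero (Finset.mem_univ (some ⟨0, hp.out.pos⟩)) ?_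
    rw [jT_zero]
    simp
  rw [← Algebra.IsAlgebraic.range_eval_eq_rootSet_minpoly] at hy
  obtain ⟨σ, hσ⟩ := hy
  change σ _ = _ at hσ
  -- values of σ on the generators
  have hσphi : ∀ (ℓ : ℕ) [Fact ℓ.Prime] (x y : LaurentSeries K) (hx : x ∈ F) (hy : y ∈ F),
      (phi ℓ y).eval x = 0 → (phi ℓ (σ ⟨y, hy⟩)).eval (σ ⟨x, hx⟩) = 0 := by
    intro ℓ _ x y hx hy h
    have h1 : (phi ℓ (⟨y, hy⟩ : F)).eval ⟨x, hx⟩ = 0 := by
      apply (algebraMap F (LaurentSeries K)).injective
      rw [map_zero, ← Polynomial.eval₂_hom, ← Polynomial.eval_map, phi_map]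
      exact h
    have h2 := congrArg (σ : F →+* M) h1
    rw [map_zero, ← Polynomial.eval₂_hom, ← Polynomial.eval_map, phi_map] at h2
    exact h2
  have key : ∀ e, ∀ he : e ∣ N, ∃ (r : ℚ) (hr : 0 < r) (ζ : Kˣ), r ∈ gammaP p ∧
      σ ⟨vj K e, hvjF e he⟩ = ι (hs r hr ζ (jqModC K)) := by
    intro e
    induction e using induction_on_primes with
    | zero => intro h; exact absurd (zero_dvd_iff.mp h) hN
    | one =>
      intro he
      refine ⟨1, one_pos, 1, one_mem_gammaP, ?_⟩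
      have h1 : (⟨vj K 1, hvjF 1 he⟩ : F) = algebraMap E0 F ⟨jqModC K, hj⟩ := by
        apply Subtype.ext
        exact vj_one K
      rw [h1, AlgHom.commutes]
      rfl
    | prime_mul ℓ e hℓ ih =>
      intro h
      have heN : e ∣ N := (Dvd.intro_left ℓ rfl).trans h
      have hℓN : ℓ ∣ N := (Dvd.intro e rfl).trans h
      have : Fact ℓ.Prime := ⟨hℓ⟩
      have hne : p ≠ ℓ := by rintro rfl; exact hpN hℓN
      obtain ⟨w, hw⟩ := hroots ℓ hℓ hℓN
      obtain ⟨r, hr, ζ, hrp, hrσ⟩ := ih heN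
      have h1 := eval_phi_vj (K := K) hw (a := e) (c := ℓ * e) (hd0 e heN) (mul_comm _ _)
      have h2 := hσphi ℓ _ _ (hvjF _ h) (hvjF _ heN) h1
      rw [hrσ] at h2
      obtain ⟨η, hη⟩ := exists_pow_eq' ℓ hℓ.ne_zero ζ
      rcases eval_phi_hs_eq_zero (hr := hr) hw ι hη h2 with h3 | ⟨b, h3⟩
      · exact ⟨_, _, _, mul_prime_mem_gammaP hrp, h3⟩
      · exact ⟨_, _, _, div_prime_mem_gammaP hne hrp, h3⟩
  -- all of `F` maps into the `p`-integral part
  have hall : ∀ x (hx : x ∈ F), σ ⟨x, hx⟩ ∈ (ι.comp (embP p K)).fieldRange := by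
    intro x hx
    induction hx using IntermediateField.adjoin_induction with
    | mem x hx =>
      obtain ⟨d, hd, rfl⟩ := hx
      obtain ⟨r, hr, ζ, hrp, hrσ⟩ := key d hd
      obtain ⟨z, hz⟩ := hs_mem_range_embP (hr := hr) (ζ := ζ) hrp (jqModC K)
      refine ⟨z, ?_⟩
      rw [hrσ, ← hz]
      rfl
    | algebraMap x =>
      have h1 : (⟨algebraMap E0 (LaurentSeries K) x, algebraMap_mem F x⟩ : F) =
        algebraMap E0 F x := rfl
      rw [h1, AlgHom.commutes]
      obtain ⟨z, hz⟩ := hs_mem_range_embP (hr := one_pos) (ζ := 1)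
        (one_mem_gammaP (p := p)) (x : LaurentSeries K)
      refine ⟨z, ?_⟩
      rw [hαE0]
      change ι (embP p K z) = ι (hs 1 one_pos 1 x)
      rw [hz]
    | add x y hx hy h1 h2 =>
      have h3 : (⟨x + y, add_mem hx hy⟩ : F) = ⟨x, hx⟩ + ⟨y, hy⟩ := rfl
      rw [h3, map_add]
      exact add_mem h1 h2
    | inv x hx h1 =>
      have h3 : (⟨x⁻¹, inv_mem hx⟩ : F) = (⟨x, hx⟩ : F)⁻¹ := rfl
      rw [h3, map_inv₀]
      exact inv_mem h1
    | mul x y hx hy h1 h2 =>
      have h3 : (⟨x * y, mul_mem hx hy⟩ : F) = ⟨x, hx⟩ * ⟨y, hy⟩ := rfl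
      rw [h3, map_mul]
      exact mul_mem h1 h2
  have h5 := hall _ hmemF
  rw [hσ] at h5
  obtain ⟨z, hz⟩ := h5
  exact hs_inv_notMem_range_embP (K := K) (hr := hpos) (ζ := 1) ⟨z, ι.injective hz⟩

include hN hroots hv in
/-- `j(q^p)` is not in the level-`N` function field when `p ∤ N`. -/
theorem qExpand_jq_notMem_full (hp0 : (p : K) ≠ 0) (hpN : ¬ p ∣ N) :
    qExpand K p (jqModC K) ∉ modularFunctionFieldFullC K N :=
  qExpand_jq_notMem_full_aux hN hroots hv hp0 hpN
    (algebraMap (HahnSeries ℚ K) (AlgebraicClosure (HahnSeries ℚ K)))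

end NotMem

end Fermat.Agent.ModDeg
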