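import Mathlib
import Fermat.Prelude.Def_ModularCurve_X0

/-!
# Recursion for the Dedekind psi function
-/

set_option autoImplicit false

noncomputable section

open ModularCurve

namespace Fermat.Agent.ModDeg

open Classical in
/-- indicator of squarefree numbers -/
def sqfInd : ArithmeticFunction ℕ := ⟨fun n => if Squarefree n then 1 else 0, by simp⟩

open Classical in
theorem sqfInd_apply (n : ℕ) : sqfInd n = if Squarefree n then 1 else 0 := rfl

theorem mult_sqfInd : sqfInd.IsMultiplicative := by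
  refine ⟨by simp [sqfInd_apply], fun {m n} h => ?_⟩
  simp only [sqfInd_apply, Nat.squarefree_mul h]
  by_cases h1 : Squarefree m <;> by_cases h2 : Squarefree n <;> simp [h1, h2]

theorem psi_eq (n : ℕ) : (sqfInd * ArithmeticFunction.id) n = dedekindPsi n := by
  classical
  rw [ArithmeticFunction.mul_apply, dedekindPsi,
    Nat.sum_divisorsAntidiagonal (fun a b => sqfInd a * ArithmeticFunction.id b),
    Finset.sum_filter]
  refine Finset.sum_congr rfl fun d _ => ?_
  simp [sqfInd_apply, ite_mul]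

theorem psi_mul_of_coprime {m n : ℕ} (h : m.Coprime n) :
    dedekindPsi (m * n) = dedekindPsi m * dedekindPsi n := by
  rw [← psi_eq, ← psi_eq, ← psi_eq]
  exact (mult_sqfInd.mul ArithmeticFunction.isMultiplicative_id).map_mul_of_coprime h

theorem psi_pow_succ {p : ℕ} (hp : p.Prime) (k : ℕ) :
    dedekindPsi (p ^ (k + 1)) = p ^ (k + 1) + p ^ k := by
  rw [dedekindPsi, Finset.sum_filter, Nat.sum_divisors_prime_pow hp, Finset.sum_range_succ',
    Finset.sum_range_succ']
  have h1 : ∀ i ∈ Finset.range k, (if Squarefree (p ^ (i + 1 + 1)) then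
      p ^ (k + 1) / p ^ (i + 1 + 1) else 0) = 0 := by
    intro i _
    rw [if_neg]
    intro h
    have h2 : p * p ∣ p ^ (i + 1 + 1) := ⟨p ^ i, by ring⟩
    exact hp.not_isUnit (h p h2)
  rw [Finset.sum_congr rfl h1, Finset.sum_const_zero, zero_add]
  have h3 : Squarefree (p ^ (0 + 1)) := by simpa using hp.prime.squarefree
  rw [if_pos h3, if_pos (by simp)]
  have h4 : p ^ (k + 1) / p ^ (0 + 1) = p ^ k := by
    rw [Nat.pow_div (by omega) hp.pos]; simp
  rw [h4]
  simp [add_comm]

theorem psi_mul_prime_of_not_dvd {N p : ℕ} (hp : p.Prime) (h : ¬ p ∣ N) :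
    dedekindPsi (N * p) = (p + 1) * dedekindPsi N := by
  have hc : N.Coprime p := ((Nat.Prime.coprime_iff_not_dvd hp).mpr h).symm
  have h1 := psi_pow_succ hp 0
  rw [zero_add, pow_one, pow_zero] at h1
  rw [psi_mul_of_coprime hc, h1, mul_comm]

theorem psi_mul_prime_of_dvd {N p : ℕ} (hN : N ≠ 0) (hp : p.Prime) (h : p ∣ N) :
    dedekindPsi (N * p) = p * dedekindPsi N := by
  obtain ⟨k, m, hm, rfl⟩ := Nat.exists_eq_pow_mul_and_not_dvd hN p hp.ne_one
  obtain ⟨k, rfl⟩ : ∃ l, k = l + 1 := by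
    rcases k with _ | k
    · rw [pow_zero, one_mul] at h
      exact absurd h hm
    · exact ⟨k, rfl⟩
  have hc : ∀ j, (p ^ j).Coprime m := fun j =>
    Nat.Coprime.pow_left j ((Nat.Prime.coprime_iff_not_dvd hp).mpr hm)
  have h1 : p ^ (k + 1) * m * p = p ^ (k + 1 + 1) * m := by ring
  rw [h1, psi_mul_of_coprime (hc _), psi_mul_of_coprime (hc _), psi_pow_succ hp, psi_pow_succ hp]
  ring

theorem psi_pos {N : ℕ} (hN : N ≠ 0) : 0 < dedekindPsi N := by
  rw [dedekindPsi]
  refine Finset.sum_pos (fun d hd => ?_) ⟨1, by simp [hN]⟩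
  rw [Finset.mem_filter, Nat.mem_divisors] at hd
  exact Nat.div_pos (Nat.le_of_dvd (Nat.pos_of_ne_zero hN) hd.1.1)
    (Nat.pos_of_dvd_of_pos hd.1.1 (Nat.pos_of_ne_zero hN))

end Fermat.Agent.ModDeg
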