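import Mathlib
import Fermat.Agent.ModDeg.NotMem
import Fermat.Agent.ModDeg.Psi

/-!
# The degree of the level-`N` function field over `K(j)`, `K` algebraically closed
-/

set_option autoImplicit false

noncomputable section

open ModularCurve Fermat.Agent.ModPoly Polynomial
open scoped IntermediateField

namespace Fermat.Agent.ModDeg

section Roots

variable {K : Type*} [Field K] [IsAlgClosed K]

theorem exists_primitiveRoot_unit {ℓ : ℕ} (hℓ : ℓ.Prime) (h : (ℓ : K) ≠ 0) :
    ∃ w : Kˣ, IsPrimitiveRoot w ℓ := by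
  have : NeZero ℓ := ⟨hℓ.ne_zero⟩
  have : NeZero (ℓ : K) := ⟨h⟩
  obtain ⟨ζ, hζ⟩ := HasEnoughRootsOfUnity.exists_primitiveRoot K ℓ
  obtain ⟨w, rfl⟩ := hζ.isUnit hℓ.ne_zero
  exact ⟨w, IsPrimitiveRoot.coe_units_iff.mp hζ⟩

theorem roots_of_dvd {N : ℕ} (hN : (N : K) ≠ 0) :
    ∀ ℓ : ℕ, ℓ.Prime → ℓ ∣ N → ∃ w : Kˣ, IsPrimitiveRoot w ℓ := by
  intro ℓ hℓ hd
  apply exists_primitiveRoot_unit hℓ
  intro h
  obtain ⟨m, rfl⟩ := hd
  rw [Nat.cast_mul, h, zero_mul] at hN
  exact hN rfl

end Roots

section Steps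

variable {K : Type*} [Field K] {p : ℕ} [hp : Fact p.Prime]

/-- elements of `V_p(E)` are series in `q^p` -/
theorem exists_of_mem_map (E : IntermediateField K (LaurentSeries K)) (y : LaurentSeries K)
    (hy : y ∈ E.map (qExpandAlgHomC K p)) : ∃ c, y = qExpand K p c := by
  obtain ⟨c, -, rfl⟩ := hy
  exact ⟨c, rfl⟩

theorem map_adjoin_jq : (IntermediateField.adjoin K {jqModC K}).map (qExpandAlgHomC K p) =
    IntermediateField.adjoin K {qExpand K p (jqModC K)} := by
  rw [IntermediateField.adjoin_map, Set.image_singleton]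
  rfl

theorem notMem_map_of_notMem {E : IntermediateField K (LaurentSeries K)} {x : LaurentSeries K}
    (h : x ∉ E) : qExpand K p x ∉ E.map (qExpandAlgHomC K p) := by
  rintro ⟨c, hc, hcx⟩
  exact h ((qExpand_injective (R := K) p hcx) ▸ hc)

theorem mem_map_of_mem {E : IntermediateField K (LaurentSeries K)} {x : LaurentSeries K}
    (h : x ∈ E) : qExpand K p x ∈ E.map (qExpandAlgHomC K p) := ⟨x, h, rfl⟩

variable {v : Kˣ} (hv : IsPrimitiveRoot v p)

include hv in
/-- degree of `K(j, j(q^p))` over `K(j)` -/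
theorem relfinrank_left (hp0 : (p : K) ≠ 0) :
    IntermediateField.relfinrank (IntermediateField.adjoin K {jqModC K})
      (IntermediateField.adjoin K {jqModC K} ⊔
        IntermediateField.adjoin K {qExpand K p (jqModC K)}) = p + 1 := by
  have hj := IntermediateField.mem_adjoin_simple_self K (jqModC K)
  rw [relfinrank_adjoin_insert _ (isIntegral_of_eval_phi _ p hj (eval_phi_jq hv)),
    natDegree_minpoly_qExpand_jq hv _ hj (qExpand_jq_notMem hv hp0)]

include hv in
/-- degree of `K(j, j(q^p))` over `K(j(q^p))` -/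
theorem relfinrank_right (hp0 : (p : K) ≠ 0) :
    IntermediateField.relfinrank (IntermediateField.adjoin K {qExpand K p (jqModC K)})
      (IntermediateField.adjoin K {jqModC K} ⊔
        IntermediateField.adjoin K {qExpand K p (jqModC K)}) = p + 1 := by
  have hVj := IntermediateField.mem_adjoin_simple_self K (qExpand K p (jqModC K))
  rw [sup_comm, relfinrank_adjoin_insert _
    (isIntegral_of_eval_phi _ p hVj (eval_phi_qExpand_jq hv))]
  refine natDegree_minpoly_jq' hv _ ?_ hVj ?_
  · rw [← map_adjoin_jq]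
    exact exists_of_mem_map _
  · rw [← map_adjoin_jq]
    exact notMem_map_of_notMem (qExpand_jq_notMem hv hp0)

theorem adjoin_jq_le_full (N : ℕ) :
    IntermediateField.adjoin K {jqModC K} ≤ modularFunctionFieldFullC K N := by
  rw [IntermediateField.adjoin_le_iff, Set.singleton_subset_iff]
  exact jqModC_mem_full K N

end Steps

section Main

variable {K : Type*} [Field K] [IsAlgClosed K]

/-- `[F_{Np} : F_N] = p + 1` for `p ∤ N` -/
theorem relfinrank_full_mul_of_not_dvd {N p : ℕ} [hp : Fact p.Prime]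
    (hNp : ((N * p : ℕ) : K) ≠ 0) (hpN : ¬ p ∣ N) :
    IntermediateField.relfinrank (modularFunctionFieldFullC K N)
      (modularFunctionFieldFullC K (N * p)) = p + 1 := by
  rw [Nat.cast_mul] at hNp
  have hNK := left_ne_zero_of_mul hNp
  have hpK := right_ne_zero_of_mul hNp
  have hN : N ≠ 0 := by rintro rfl; simp at hNK
  obtain ⟨v, hv⟩ := exists_primitiveRoot_unit hp.out hpK
  have hj := jqModC_mem_full K N
  rw [full_mul_prime_of_not_dvd hN (roots_of_dvd hNK) hv hpN,
    relfinrank_adjoin_insert _ (isIntegral_of_eval_phi _ p hj (eval_phi_jq hv)),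
    natDegree_minpoly_qExpand_jq hv _ hj
      (qExpand_jq_notMem_full hN (roots_of_dvd hNK) hv hpK hpN)]

/-- `[F_{Np} : V_p(F_N)] = p` for `p ∣ N` -/
theorem relfinrank_map_full_mul_of_dvd {N p : ℕ} [hp : Fact p.Prime]
    (hNK : (N : K) ≠ 0) (hpN : p ∣ N) :
    IntermediateField.relfinrank ((modularFunctionFieldFullC K N).map (qExpandAlgHomC K p))
      (modularFunctionFieldFullC K (N * p)) = p := by
  have hpK : (p : K) ≠ 0 := by
    intro h
    obtain ⟨m, rfl⟩ := hpN
    rw [Nat.cast_mul, h, zero_mul] at hNK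
    exact hNK rfl
  have hN : N ≠ 0 := by rintro rfl; simp at hNK
  obtain ⟨v, hv⟩ := exists_primitiveRoot_unit hp.out hpK
  have hVj : qExpand K p (jqModC K) ∈
      (modularFunctionFieldFullC K N).map (qExpandAlgHomC K p) :=
    mem_map_of_mem (jqModC_mem_full K N)
  have hVVj : qExpand K p (qExpand K p (jqModC K)) ∈
      (modularFunctionFieldFullC K N).map (qExpandAlgHomC K p) :=
    mem_map_of_mem (jqModCd_mem_full K N hpN)
  rw [full_mul_prime_of_dvd hN (roots_of_dvd hNK) hv,
    relfinrank_adjoin_insert _ (isIntegral_of_eval_phi _ p hVj (eval_phi_qExpand_jq hv))]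
  exact natDegree_minpoly_jq hv _ (exists_of_mem_map _) hVj hVVj

theorem relfinrank_step_of_not_dvd {N p : ℕ} [hp : Fact p.Prime]
    (hNp : ((N * p : ℕ) : K) ≠ 0) (hpN : ¬ p ∣ N) :
    IntermediateField.relfinrank (IntermediateField.adjoin K {jqModC K})
      (modularFunctionFieldFullC K (N * p)) =
    (p + 1) * IntermediateField.relfinrank (IntermediateField.adjoin K {jqModC K})
      (modularFunctionFieldFullC K N) := by
  have hNp0 : N * p ≠ 0 := by
    intro h
    rw [h] at hNp
    simp at hNp
  have : NeZero N := ⟨left_ne_zero_of_mul hNp0⟩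
  have : NeZero (N * p) := ⟨hNp0⟩
  rw [← IntermediateField.relfinrank_mul_relfinrank (adjoin_jq_le_full N)
    (full_degeneracyC_le K (Dvd.intro p rfl)), relfinrank_full_mul_of_not_dvd hNp hpN, mul_comm]

theorem relfinrank_step_of_dvd {N p : ℕ} [hp : Fact p.Prime]
    (hNK : (N : K) ≠ 0) (hpN : p ∣ N) :
    IntermediateField.relfinrank (IntermediateField.adjoin K {jqModC K})
      (modularFunctionFieldFullC K (N * p)) =
    p * IntermediateField.relfinrank (IntermediateField.adjoin K {jqModC K})
      (modularFunctionFieldFullC K N) := by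
  have hpK : (p : K) ≠ 0 := by
    intro h
    obtain ⟨m, rfl⟩ := hpN
    rw [Nat.cast_mul, h, zero_mul] at hNK
    exact hNK rfl
  have hN : N ≠ 0 := by rintro rfl; simp at hNK
  obtain ⟨v, hv⟩ := exists_primitiveRoot_unit hp.out hpK
  have : NeZero N := ⟨hN⟩
  have : NeZero (N * p) := ⟨mul_ne_zero hN hp.out.ne_zero⟩
  have hG : IntermediateField.adjoin K {jqModC K} ⊔
      IntermediateField.adjoin K {qExpand K p (jqModC K)} ≤
      modularFunctionFieldFullC K (N * p) := by
    rw [sup_le_iff]
    refine ⟨adjoin_jq_le_full _, ?_⟩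
    rw [IntermediateField.adjoin_le_iff, Set.singleton_subset_iff]
    exact jqModCd_mem_full K (N * p) (Dvd.intro_left N rfl)
  have h1 := IntermediateField.relfinrank_mul_relfinrank (le_sup_left :
    IntermediateField.adjoin K {jqModC K} ≤ _) hG
  have h2 := IntermediateField.relfinrank_mul_relfinrank (le_sup_right :
    IntermediateField.adjoin K {qExpand K p (jqModC K)} ≤ _) hG
  rw [relfinrank_left hv hpK] at h1
  rw [relfinrank_right hv hpK] at h2
  have h3 := IntermediateField.relfinrank_mul_relfinrank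
    (IntermediateField.map_mono (qExpandAlgHomC K p) (adjoin_jq_le_full (K := K) N))
    (full_degeneracyC_map_le K N p)
  rw [IntermediateField.relfinrank_map_map, relfinrank_map_full_mul_of_dvd hNK hpN,
    map_adjoin_jq] at h3
  rw [← h1, h2, ← h3, mul_comm]

/-- **Degree theorem**, algebraically closed case. -/
theorem relfinrank_full_of_isAlgClosed (N : ℕ) (hN : (N : K) ≠ 0) :
    IntermediateField.relfinrank (IntermediateField.adjoin K {jqModC K})
      (modularFunctionFieldFullC K N) = dedekindPsi N := by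
  have hN0 : N ≠ 0 := by rintro rfl; simp at hN
  induction N using induction_on_primes with
  | zero => exact absurd rfl hN0
  | one =>
    rw [dedekindPsi_one, IntermediateField.relfinrank_eq_one_iff, full_le_iff K one_ne_zero]
    intro d hd
    rw [Nat.dvd_one.mp hd, vj_one]
    exact IntermediateField.mem_adjoin_simple_self K _
  | prime_mul p N hp ih =>
    have : Fact p.Prime := ⟨hp⟩
    have hN1 : N ≠ 0 := right_ne_zero_of_mul hN0
    rw [mul_comm p N] at hN ⊢
    have hNK : (N : K) ≠ 0 := by
      rw [Nat.cast_mul] at hN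
      exact left_ne_zero_of_mul hN
    by_cases hpN : p ∣ N
    · rw [relfinrank_step_of_dvd hNK hpN, ih hNK hN1, psi_mul_prime_of_dvd hN1 hp hpN]
    · rw [relfinrank_step_of_not_dvd hN hpN, ih hNK hN1, psi_mul_prime_of_not_dvd hp hpN]

end Main

end Fermat.Agent.ModDeg
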