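import Mathlib
import Fermat.Agent.ModDeg.DegreeClosed

/-!
# The degree of the level-`N` function field over `K(j)`, for an arbitrary field `K`
-/

set_option autoImplicit false

noncomputable section

open ModularCurve Fermat.Agent.ModPoly Polynomial
open scoped IntermediateField

namespace Fermat.Agent.ModDeg

section AnyRing

variable (p : ℕ) [hp : Fact p.Prime]

theorem eval_phi_of_coeffMap {R S : Type*} [CommRing R] [CommRing S] (f : R →+* S)
    (x y : LaurentSeries R) :
    coeffMap f ((phi p y).eval x) = (phi p (coeffMap f y)).eval (coeffMap f x) := by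
  rw [← Polynomial.eval₂_hom, ← Polynomial.eval_map, phi_map]

/-- `Φ_p(j(q^p), j(q)) = 0` over any commutative ring. -/
theorem eval_phi_jqR (R : Type*) [CommRing R] :
    (phi p (jqModC R)).eval (qExpand R p (jqModC R)) = 0 := by
  have hZ : (phi p (jqModC ℤ)).eval (qExpand ℤ p (jqModC ℤ)) = 0 := by
    apply coeffMap_injective (f := Int.castRingHom ℂ) (Int.castRingHom ℂ).injective_int
    obtain ⟨v, hv⟩ := exists_primitiveRoot_unit (K := ℂ) hp.out (by exact_mod_cast hp.out.ne_zero)
    rw [eval_phi_of_coeffMap, coeffMap_qExpand, coeffMap_jqModC, eval_phi_jq hv, map_zero]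
  have h := congrArg (coeffMap (Int.castRingHom R)) hZ
  rwa [eval_phi_of_coeffMap, coeffMap_qExpand, coeffMap_jqModC, map_zero] at h

/-- `Φ_p(j(q), j(q^p)) = 0` over any commutative ring. -/
theorem eval_phi_jqR' (R : Type*) [CommRing R] :
    (phi p (qExpand R p (jqModC R))).eval (jqModC R) = 0 := by
  have hZ : (phi p (qExpand ℤ p (jqModC ℤ))).eval (jqModC ℤ) = 0 := by
    apply coeffMap_injective (f := Int.castRingHom ℂ) (Int.castRingHom ℂ).injective_int
    obtain ⟨v, hv⟩ := exists_primitiveRoot_unit (K := ℂ) hp.out (by exact_mod_cast hp.out.ne_zero)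
    rw [eval_phi_of_coeffMap, coeffMap_qExpand, coeffMap_jqModC, eval_phi_qExpand_jq hv, map_zero]
  have h := congrArg (coeffMap (Int.castRingHom R)) hZ
  rwa [eval_phi_of_coeffMap, coeffMap_qExpand, coeffMap_jqModC, map_zero] at h

variable {p}

theorem eval_phi_homR {R B : Type*} [CommRing R] [CommRing B] (σ : LaurentSeries R →+* B) :
    (phi p (σ (jqModC R))).eval (σ (qExpand R p (jqModC R))) = 0 := by
  rw [← phi_map, Polynomial.eval_map, Polynomial.eval₂_hom, eval_phi_jqR, map_zero]

theorem eval_phi_homR' {R B : Type*} [CommRing R] [CommRing B] (σ : LaurentSeries R →+* B) :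
    (phi p (σ (qExpand R p (jqModC R)))).eval (σ (jqModC R)) = 0 := by
  rw [← phi_map, Polynomial.eval_map, Polynomial.eval₂_hom, eval_phi_jqR', map_zero]

variable {K : Type*} [Field K]

theorem eval_phi_vjR {a c : ℕ} (ha : a ≠ 0) (hc : c = a * p) :
    (phi p (vj K a)).eval (vj K c) = 0 := by
  subst hc
  have : NeZero a := ⟨ha⟩
  rw [vj_mul, vj_eq]
  exact eval_phi_homR (qExpand K a)

theorem eval_phi_vjR' {a c : ℕ} (hc0 : c ≠ 0) (ha : a = c * p) :
    (phi p (vj K a)).eval (vj K c) = 0 := by
  subst ha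
  have : NeZero c := ⟨hc0⟩
  rw [vj_mul, vj_eq]
  exact eval_phi_homR' (qExpand K c)

end AnyRing

section Integral

theorem isIntegral_of_eval_phi_ring {A L : Type*} [CommRing A] [CommRing L] [Algebra A L]
    (ℓ : ℕ) [Fact ℓ.Prime] {x y : L} (hy : IsIntegral A y) (h : (phi ℓ y).eval x = 0) :
    IsIntegral A x := by
  have h2 : IsIntegral (integralClosure A L) x :=
    ⟨phi ℓ (⟨y, hy⟩ : integralClosure A L), phi_monic ℓ _, by
      rw [← Polynomial.eval_map, phi_map]; exact h⟩
  exact isIntegral_trans (A := integralClosure A L) _ h2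

variable (K : Type*) [Field K]

/-- `j(q^d)` is integral over `K[j]`, for every field `K` and every `d ≥ 1`. -/
theorem isIntegral_vj {d : ℕ} (hd : d ≠ 0) :
    IsIntegral (Algebra.adjoin K {jqModC K}) (vj K d) := by
  induction d using induction_on_primes with
  | zero => exact absurd rfl hd
  | one =>
    rw [vj_one]
    exact isIntegral_algebraMap (R := Algebra.adjoin K {jqModC K})
      (x := ⟨jqModC K, Algebra.self_mem_adjoin_singleton K _⟩)
  | prime_mul ℓ e hℓ ih =>
    have : Fact ℓ.Prime := ⟨hℓ⟩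
    have he : e ≠ 0 := right_ne_zero_of_mul hd
    exact isIntegral_of_eval_phi_ring ℓ (ih he) (eval_phi_vjR he (mul_comm _ _))

/-- `j` is integral over `K[j(q^d)]`, for every field `K` and every `d ≥ 1`. -/
theorem isIntegral_jq_vj {d : ℕ} (hd : d ≠ 0) :
    IsIntegral (Algebra.adjoin K {vj K d}) (jqModC K) := by
  have key : ∀ e m, e * m = d → IsIntegral (Algebra.adjoin K {vj K d}) (vj K m) := by
    intro e
    induction e using induction_on_primes with
    | zero => intro m h; rw [zero_mul] at h; exact absurd h.symm hd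
    | one =>
      intro m h
      rw [one_mul] at h
      rw [h]
      exact isIntegral_algebraMap (R := Algebra.adjoin K {vj K d})
        (x := ⟨vj K d, Algebra.self_mem_adjoin_singleton K _⟩)
    | prime_mul ℓ e hℓ ih =>
      intro m h
      have : Fact ℓ.Prime := ⟨hℓ⟩
      have hm : m ≠ 0 := by rintro rfl; rw [mul_zero] at h; exact hd h.symm
      exact isIntegral_of_eval_phi_ring ℓ (ih (m * ℓ) (by rw [← h]; ring))
        (eval_phi_vjR' hm rfl)
  have h := key d 1 (mul_one d)
  rwa [vj_one] at h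

theorem isIntegral_vj_field {d : ℕ} (hd : d ≠ 0) :
    IsIntegral (IntermediateField.adjoin K {jqModC K}) (vj K d) := by
  induction d using induction_on_primes with
  | zero => exact absurd rfl hd
  | one =>
    rw [vj_one]
    exact isIntegral_algebraMap (R := IntermediateField.adjoin K {jqModC K})
      (x := ⟨jqModC K, IntermediateField.mem_adjoin_simple_self K _⟩)
  | prime_mul ℓ e hℓ ih =>
    have : Fact ℓ.Prime := ⟨hℓ⟩
    have he : e ≠ 0 := right_ne_zero_of_mul hd
    exact isIntegral_of_eval_phi_ring ℓ (ih he) (eval_phi_vjR he (mul_comm _ _))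

end Integral

section Steps

variable {K K' : Type*} [Field K] [Field K'] (φ : K →+* K')
  {p : ℕ} [hp : Fact p.Prime] {v : K'ˣ} (hv : IsPrimitiveRoot v p)

local notation "Vj" => qExpand K p (jqModC K)
local notation "VVj" => qExpand K p (qExpand K p (jqModC K))

theorem coeffMap_inj' : Function.Injective (coeffMap φ) := coeffMap_injective φ.injective

include hv φ in
/-- (L1) -/
theorem natDegree_minpoly_qExpand_jq_hom (E : IntermediateField K (LaurentSeries K))
    (hj : jqModC K ∈ E) (hn : Vj ∉ E) : (minpoly E Vj).natDegree = p + 1 := by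
  have hroot := eval_phi_jqR p K
  have hint : IsIntegral E Vj := isIntegral_of_eval_phi E p hj hroot
  refine le_antisymm (natDegree_minpoly_le E p hj hroot) ?_
  have h2 : 2 ≤ (minpoly E Vj).natDegree := by
    rw [minpoly.two_le_natDegree_iff hint]
    rintro ⟨y, hy⟩
    exact hn (hy ▸ y.2)
  set P := (minpoly E Vj).map (algebraMap E (LaurentSeries K)) with hP
  have hPmonic : P.Monic := (minpoly.monic hint).map _
  have hProot : P.IsRoot Vj := by
    rw [Polynomial.IsRoot, hP, Polynomial.eval_map, ← Polynomial.aeval_def, minpoly.aeval]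
  obtain ⟨Q, hQ⟩ := Polynomial.dvd_iff_isRoot.mpr hProot
  have hQ0 : Q ≠ 0 := by
    rintro rfl
    rw [mul_zero] at hQ
    exact hPmonic.ne_zero hQ
  have hdegP : P.natDegree = (minpoly E Vj).natDegree := (minpoly.monic hint).natDegree_map _
  have hdegQ : Q.natDegree + 1 = P.natDegree := by
    rw [hQ, Polynomial.natDegree_mul (Polynomial.X_sub_C_ne_zero _) hQ0,
      Polynomial.natDegree_X_sub_C, add_comm]
  have hPdvd : P ∣ phi p (jqModC K) := by
    rw [hP, ← map_phi_intermediate E p hj]
    exact Polynomial.map_dvd _ (minpoly_dvd_phi E p hj hroot)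
  set θ : LaurentSeries K →+* LaurentSeries K' := (qExpand K' p).comp (coeffMap φ) with hθ
  have hθj : θ (jqModC K) = qExpand K' p (jqModC K') := by
    rw [hθ, RingHom.comp_apply, coeffMap_jqModC]
  have hθVj : θ Vj = jT K' p v none := by
    rw [hθ, RingHom.comp_apply, coeffMap_qExpand, coeffMap_jqModC]
    rfl
  have hQdvd : Q.map θ ∣ ∏ b : Fin p, (X - C (jT K' p v (some b))) := by
    have h3 : P.map θ ∣ ∏ i, (X - C (jT K' p v i)) := by
      rw [← phi_qExpand hv, ← hθj, ← phi_map]
      exact Polynomial.map_dvd _ hPdvd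
    rw [hQ, Polynomial.map_mul, Polynomial.map_sub, Polynomial.map_X, Polynomial.map_C,
      Fintype.prod_option, hθVj] at h3
    exact (mul_dvd_mul_iff_left (Polynomial.X_sub_C_ne_zero _)).mp h3
  have hinj : Function.Injective θ := θ.injective
  have hdegQ' : (Q.map θ).natDegree = Q.natDegree :=
    Polynomial.natDegree_map_eq_of_injective hinj _
  obtain ⟨b, -, hb⟩ := exists_root_of_dvd_prod Finset.univ _ hQdvd (by omega)
  have h4 := le_natDegree_of_eval_eq_zero p (order_jT_some b)
    ((Polynomial.map_ne_zero_iff hinj).mpr hQ0)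
    (fun k => ⟨coeffMap φ (Q.coeff k), by rw [Polynomial.coeff_map]; rfl⟩) hb
  omega

variable (E : IntermediateField K (LaurentSeries K)) (hE : ∀ y ∈ E, ∃ c, y = qExpand K p c)

include hE in
theorem le_natDegree_minpoly_jq_hom (hVj : Vj ∈ E) :
    p ≤ (minpoly E (jqModC K)).natDegree := by
  have hroot := eval_phi_jqR' p K
  have hint : IsIntegral E (jqModC K) := isIntegral_of_eval_phi E p hVj hroot
  rw [← (minpoly.monic hint).natDegree_map (algebraMap E (LaurentSeries K))]
  refine le_natDegree_of_eval_eq_zero p order_jqModC ((minpoly.monic hint).map _).ne_zero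
    (fun k => ?_) ?_
  · rw [Polynomial.coeff_map]
    exact hE _ (SetLike.coe_mem _)
  · rw [Polynomial.eval_map, ← Polynomial.aeval_def, minpoly.aeval]

include hv hE φ in
/-- (L2) -/
theorem natDegree_minpoly_jq_hom (hVj : Vj ∈ E) (hVVj : VVj ∈ E) :
    (minpoly E (jqModC K)).natDegree = p := by
  refine le_antisymm ?_ (le_natDegree_minpoly_jq_hom E hE hVj)
  have hroot : (phi p (⟨Vj, hVj⟩ : E)).IsRoot (⟨VVj, hVVj⟩ : E) := by
    rw [Polynomial.IsRoot]
    apply (algebraMap E (LaurentSeries K)).injective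
    rw [map_zero, ← Polynomial.eval₂_hom, ← Polynomial.eval_map, map_phi_intermediate]
    exact eval_phi_homR (qExpand K p)
  obtain ⟨Q, hQ⟩ := Polynomial.dvd_iff_isRoot.mpr hroot
  have hmonic := phi_monic p (⟨Vj, hVj⟩ : E)
  have hQ0 : Q ≠ 0 := by
    rintro rfl
    rw [mul_zero] at hQ
    exact hmonic.ne_zero hQ
  have hdeg := phi_natDegree p (⟨Vj, hVj⟩ : E)
  rw [hQ, Polynomial.natDegree_mul (Polynomial.X_sub_C_ne_zero _) hQ0,
    Polynomial.natDegree_X_sub_C] at hdeg
  have hQmap : (Q.map (algebraMap E (LaurentSeries K))).map (coeffMap φ) =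
      ∏ b : Fin p, (X - C (jT K' p v (some b))) := by
    have h1 := congrArg (Polynomial.map (coeffMap φ)) (map_phi_intermediate E p hVj)
    rw [phi_map p (coeffMap φ) Vj, coeffMap_qExpand, coeffMap_jqModC, phi_qExpand hv, hQ,
      Polynomial.map_mul,
      Polynomial.map_mul, Polynomial.map_sub, Polynomial.map_sub, Polynomial.map_X,
      Polynomial.map_X, Polynomial.map_C, Polynomial.map_C, Fintype.prod_option] at h1
    have h2 : coeffMap φ ((algebraMap E (LaurentSeries K)) ⟨VVj, hVVj⟩) = jT K' p v none := by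
      change coeffMap φ VVj = _
      rw [coeffMap_qExpand, coeffMap_qExpand, coeffMap_jqModC]
      rfl
    rw [h2] at h1
    exact mul_left_cancel₀ (Polynomial.X_sub_C_ne_zero _) h1
  have hQroot : aeval (jqModC K) Q = 0 := by
    apply coeffMap_inj' φ
    rw [map_zero, Polynomial.aeval_def, ← Polynomial.eval_map, ← Polynomial.eval₂_hom,
      ← Polynomial.eval_map, hQmap, Polynomial.eval_prod, coeffMap_jqModC]
    refine Finset.prod_eq_zero (Finset.mem_univ ⟨0, hp.out.pos⟩) ?_
    rw [jT_zero]
    simp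
  have h5 := Polynomial.natDegree_le_of_dvd (minpoly.dvd _ _ hQroot) hQ0
  omega

include hv hE φ in
/-- (L2') -/
theorem natDegree_minpoly_jq_hom' (hVj : Vj ∈ E) (hVVj : VVj ∉ E) :
    (minpoly E (jqModC K)).natDegree = p + 1 := by
  have hroot := eval_phi_jqR' p K
  have hint : IsIntegral E (jqModC K) := isIntegral_of_eval_phi E p hVj hroot
  have h1 := natDegree_minpoly_le E p hVj hroot
  have h2 := le_natDegree_minpoly_jq_hom E hE hVj
  by_contra hne
  have h3 : (minpoly E (jqModC K)).natDegree = p := by omega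
  obtain ⟨R, hR⟩ := minpoly_dvd_phi E p hVj hroot
  have hmonic := phi_monic p (⟨Vj, hVj⟩ : E)
  have hRmonic : R.Monic := (minpoly.monic hint).of_mul_monic_left (hR ▸ hmonic)
  have hdeg := phi_natDegree p (⟨Vj, hVj⟩ : E)
  rw [hR, (minpoly.monic hint).natDegree_mul hRmonic, h3] at hdeg
  have hR1 := hRmonic.eq_X_add_C (by omega)
  set a : E := -R.coeff 0 with ha
  have hRa : R.eval a = 0 := by
    rw [hR1]
    simp [ha]
  have h4 : (phi p (⟨Vj, hVj⟩ : E)).eval a = 0 := by
    rw [hR, Polynomial.eval_mul, hRa, mul_zero]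
  have h5 : (phi p (qExpand K' p (jqModC K'))).eval (coeffMap φ (a : LaurentSeries K)) = 0 := by
    have := congrArg (algebraMap E (LaurentSeries K)) h4
    rw [map_zero, ← Polynomial.eval₂_hom, ← Polynomial.eval_map, map_phi_intermediate] at this
    have h6 := congrArg (coeffMap φ) this
    rw [eval_phi_of_coeffMap, coeffMap_qExpand, coeffMap_jqModC, map_zero] at h6
    exact h6
  rw [phi_qExpand hv, Polynomial.eval_prod, Finset.prod_eq_zero_iff] at h5
  obtain ⟨i, -, hi⟩ := h5
  rw [Polynomial.eval_sub, Polynomial.eval_X, Polynomial.eval_C, sub_eq_zero] at hi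
  obtain ⟨c, hc⟩ := hE _ a.2
  rcases i with _ | b
  · apply hVVj
    have h7 : (a : LaurentSeries K) = VVj := by
      apply coeffMap_inj' φ
      rw [hi, coeffMap_qExpand, coeffMap_qExpand, coeffMap_jqModC]
      rfl
    rw [← h7]
    exact a.2
  · have h6 := congrArg HahnSeries.order hi
    rw [order_jT_some, hc, coeffMap_qExpand, order_qExpand] at h6
    have h7 : (p : ℤ) ∣ 1 := ⟨-(coeffMap φ c).order, by linarith⟩
    have h8 : (2 : ℤ) ≤ p := by exact_mod_cast hp.out.two_le
    exact absurd (Int.le_of_dvd one_pos h7) (by omega)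

theorem coeffMap_vj (d : ℕ) : coeffMap φ (vj K d) = vj K' d := by
  by_cases hd : d = 0
  · rw [vj, vj, dif_pos hd, dif_pos hd, map_zero]
  · have : NeZero d := ⟨hd⟩
    rw [vj_eq, vj_eq, coeffMap_qExpand, coeffMap_jqModC]

/-- `coeffMap φ` maps `K(S)` into any subfield over `K'` containing the image of `S`. -/
theorem coeffMap_mem_of_mem_adjoin (S : Set (LaurentSeries K))
    (E' : IntermediateField K' (LaurentSeries K')) (hS : ∀ x ∈ S, coeffMap φ x ∈ E')
    {x : LaurentSeries K} (hx : x ∈ IntermediateField.adjoin K S) : coeffMap φ x ∈ E' := by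
  induction hx using IntermediateField.adjoin_induction with
  | mem x hx => exact hS x hx
  | algebraMap x =>
    have h1 : coeffMap φ (algebraMap K (LaurentSeries K) x) =
        algebraMap K' (LaurentSeries K') (φ x) := by
      rw [algebraMap_eq_single, algebraMap_eq_single]
      ext n
      rw [coeffMap_coeff]
      rcases eq_or_ne n 0 with rfl | hn
      · simp
      · rw [HahnSeries.coeff_single_of_ne hn, HahnSeries.coeff_single_of_ne hn, map_zero]
    rw [h1]
    exact algebraMap_mem E' _
  | add x y hx hy h1 h2 => rw [map_add]; exact add_mem h1 h2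
  | inv x hx h1 => rw [map_inv₀]; exact inv_mem h1
  | mul x y hx hy h1 h2 => rw [map_mul]; exact mul_mem h1 h2

theorem coeffMap_mem_full {N : ℕ} {x : LaurentSeries K}
    (hx : x ∈ modularFunctionFieldFullC K N) : coeffMap φ x ∈ modularFunctionFieldFullC K' N := by
  refine coeffMap_mem_of_mem_adjoin φ _ _ ?_ hx
  rintro x ⟨d, hd0, hd, rfl⟩
  rw [coeffMap_qExpand, coeffMap_jqModC]
  exact jqModCd_mem_full K' N hd

theorem coeffMap_mem_adjoin_jq {x : LaurentSeries K}
    (hx : x ∈ IntermediateField.adjoin K {jqModC K}) :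
    coeffMap φ x ∈ IntermediateField.adjoin K' {jqModC K'} := by
  refine coeffMap_mem_of_mem_adjoin φ _ _ ?_ hx
  rintro x rfl
  rw [coeffMap_jqModC]
  exact IntermediateField.mem_adjoin_simple_self K' _

variable {ℓ : ℕ} [hℓ : Fact ℓ.Prime] {w : K'ˣ} (hw : IsPrimitiveRoot w ℓ)

include hv hw φ in
omit hE in
/-- the basic generation step -/
theorem gen_step_hom {a b c : ℕ} (ha0 : a ≠ 0)
    (hb0 : b ≠ 0) (hc : c = a * ℓ) (hcb : c = b * p ∨ b = c * p) (h1 : a ≠ b * p * ℓ)
    (h2 : a * p ≠ b * ℓ) (ha : vj K a ∈ E) (hb : vj K b ∈ E) : vj K c ∈ E := by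
  have hℓ0 : (ℓ : ℚ) ≠ 0 := by exact_mod_cast hℓ.out.ne_zero
  have hp0 : (p : ℚ) ≠ 0 := by exact_mod_cast hp.out.ne_zero
  have hc0 : c ≠ 0 := by rw [hc]; exact mul_ne_zero ha0 hℓ.out.ne_zero
  have ha' : (0 : ℚ) < a := by exact_mod_cast Nat.pos_of_ne_zero ha0
  have hb' : (0 : ℚ) < b := by exact_mod_cast Nat.pos_of_ne_zero hb0
  have hc' : (0 : ℚ) < c := by exact_mod_cast Nat.pos_of_ne_zero hc0
  set ι : LaurentSeries K →+* HahnSeries ℚ K' := (hs 1 one_pos 1).comp (coeffMap φ) with hι
  have hιvj : ∀ {d : ℕ} (hd : d ≠ 0) (hd' : (0 : ℚ) < d),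
      ι (vj K d) = hs (d : ℚ) hd' 1 (jqModC K') := by
    intro d hd hd'
    rw [hι, RingHom.comp_apply, coeffMap_vj, hs_vj hd hd']
  have hmap : ∀ (q : ℕ) [Fact q.Prime] (y : LaurentSeries K) (hy : y ∈ E),
      (phi q (⟨y, hy⟩ : E)).map (ι.comp (algebraMap E (LaurentSeries K))) = phi q (ι y) := by
    intro q _ y hy
    rw [phi_map]
    rfl
  refine mem_of_common_root E ι (f := phi ℓ (⟨vj K a, ha⟩ : E))
    (g := phi p (⟨vj K b, hb⟩ : E)) ?_ ?_
    (fun i => hs ((a : ℚ) / ℓ) (pos_div_prime ha' ℓ) 1 (jT K' ℓ w i))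
    (hs_jT_injective (hr := ha') hw) ?_ ?_
  · rw [aeval_phi_intermediate]
    exact eval_phi_vjR ha0 hc
  · rw [aeval_phi_intermediate]
    rcases hcb with h | h
    · exact eval_phi_vjR hb0 h
    · exact eval_phi_vjR' hc0 h
  · rw [hmap, hιvj ha0 ha', phi_hs hw (one_pow _)]
  · intro i hi
    rw [hmap, hιvj hb0 hb'] at hi
    have h3 := eval_phi_hs_eq_zero (hr := hb') hv (RingHom.id _) (one_pow p) hi
    simp only [RingHom.id_apply] at h3
    rcases i with _ | i
    · rw [hs_jT_none (hr := ha') (one_pow ℓ), hιvj hc0 hc']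
      exact hs_congr _ (by rw [hc]; push_cast; ring) _ _ (by simp) _
    · exfalso
      rw [hs_jT_some] at h3
      rcases h3 with h3 | ⟨m, h3⟩
      · have h4 := (hs_jq_inj h3).1
        rw [div_eq_iff hℓ0] at h4
        exact h1 (by exact_mod_cast h4)
      · have h4 := (hs_jq_inj h3).1
        rw [div_eq_div_iff hℓ0 hp0] at h4
        exact h2 (by exact_mod_cast h4)

end Steps

section Gen

variable {K : Type*} [Field K]

theorem closure_ne_zero {m : ℕ} (h : (m : K) ≠ 0) : (m : AlgebraicClosure K) ≠ 0 := by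
  intro h1
  apply h
  apply (algebraMap K (AlgebraicClosure K)).injective
  rw [map_natCast, h1, map_zero]

variable {N p : ℕ} [hp : Fact p.Prime]

/-- (Gen1) -/
theorem full_mul_prime_of_not_dvd_field (hN : (N : K) ≠ 0) (hpK : (p : K) ≠ 0) (hpN : ¬ p ∣ N) :
    modularFunctionFieldFullC K (N * p) =
    modularFunctionFieldFullC K N ⊔ IntermediateField.adjoin K {qExpand K p (jqModC K)} := by
  have hN0 : N ≠ 0 := by rintro rfl; simp at hN
  have hNp : N * p ≠ 0 := mul_ne_zero hN0 hp.out.ne_zero
  have : NeZero N := ⟨hN0⟩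
  have : NeZero (N * p) := ⟨hNp⟩
  obtain ⟨v, hv⟩ := exists_primitiveRoot_unit hp.out (closure_ne_zero hpK)
  have hroots := roots_of_dvd (closure_ne_zero hN)
  apply le_antisymm
  · set E := modularFunctionFieldFullC K N ⊔
      IntermediateField.adjoin K {qExpand K p (jqModC K)} with hE
    have hFE : modularFunctionFieldFullC K N ≤ E := le_sup_left
    have hpE : vj K p ∈ E := by
      rw [vj_eq]
      exact (le_sup_right : IntermediateField.adjoin K {qExpand K p (jqModC K)} ≤ E)
        (IntermediateField.mem_adjoin_simple_self K _)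
    have key : ∀ e, e ∣ N → vj K (e * p) ∈ E := by
      intro e
      induction e using induction_on_primes with
      | zero => intro h; exact absurd (zero_dvd_iff.mp h) hN0
      | one => intro _; rwa [one_mul]
      | prime_mul ℓ e hℓ ih =>
        intro h
        have heN : e ∣ N := (Dvd.intro_left ℓ rfl).trans h
        have he0 : e ≠ 0 := by rintro rfl; exact hN0 (zero_dvd_iff.mp heN)
        have hℓN : ℓ ∣ N := (Dvd.intro e rfl).trans h
        have : Fact ℓ.Prime := ⟨hℓ⟩
        obtain ⟨w, hw⟩ := hroots ℓ hℓ hℓN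
        have hne : p ≠ ℓ := by rintro rfl; exact hpN hℓN
        refine gen_step_hom (algebraMap K (AlgebraicClosure K)) hv E hw (a := e * p)
          (b := ℓ * e) (mul_ne_zero he0 hp.out.ne_zero)
          (mul_ne_zero hℓ.ne_zero he0) (by ring) (Or.inl rfl) ?_ ?_ (ih heN)
          (hFE (vj_mem_full K (mul_ne_zero hℓ.ne_zero he0) h))
        · intro h3
          have h4 : (e * p) * 1 = (e * p) * (ℓ * ℓ) := by rw [mul_one]; nth_rw 1 [h3]; ring
          have h5 := Nat.eq_of_mul_eq_mul_left (Nat.pos_of_ne_zero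
            (mul_ne_zero he0 hp.out.ne_zero)) h4
          nlinarith [hℓ.two_le]
        · intro h3
          have h4 : e * (p ^ 2) = e * (ℓ ^ 2) := by rw [sq, ← mul_assoc, h3]; ring
          have h5 := Nat.eq_of_mul_eq_mul_left (Nat.pos_of_ne_zero he0) h4
          exact hne (Nat.pow_left_injective two_ne_zero h5)
    rw [full_le_iff K hNp]
    intro d hd
    by_cases hpd : p ∣ d
    · obtain ⟨e, rfl⟩ := hpd
      rw [mul_comm N p] at hd
      rw [mul_comm p e]
      exact key e (Nat.dvd_of_mul_dvd_mul_left hp.out.pos hd)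
    · have hcop : Nat.Coprime d p := ((Nat.Prime.coprime_iff_not_dvd hp.out).mpr hpd).symm
      have hdN : d ∣ N := hcop.dvd_of_dvd_mul_right hd
      exact hFE (vj_mem_full K (by rintro rfl; exact hN0 (zero_dvd_iff.mp hdN)) hdN)
  · rw [sup_le_iff]
    refine ⟨full_degeneracyC_le K (Dvd.intro p rfl), ?_⟩
    rw [IntermediateField.adjoin_le_iff, Set.singleton_subset_iff]
    exact jqModCd_mem_full K (N * p) (Dvd.intro_left N rfl)

/-- (Gen2) -/
theorem full_mul_prime_field (hN : (N : K) ≠ 0) (hpK : (p : K) ≠ 0) :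
    modularFunctionFieldFullC K (N * p) =
    (modularFunctionFieldFullC K N).map (qExpandAlgHomC K p) ⊔
      IntermediateField.adjoin K {jqModC K} := by
  have hN0 : N ≠ 0 := by rintro rfl; simp at hN
  have hNp : N * p ≠ 0 := mul_ne_zero hN0 hp.out.ne_zero
  have : NeZero N := ⟨hN0⟩
  have : NeZero (N * p) := ⟨hNp⟩
  obtain ⟨v, hv⟩ := exists_primitiveRoot_unit hp.out (closure_ne_zero hpK)
  have hroots := roots_of_dvd (closure_ne_zero hN)
  apply le_antisymm
  · set E := (modularFunctionFieldFullC K N).map (qExpandAlgHomC K p) ⊔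
      IntermediateField.adjoin K {jqModC K} with hE
    have hFE : (modularFunctionFieldFullC K N).map (qExpandAlgHomC K p) ≤ E := le_sup_left
    have hjE : vj K 1 ∈ E := by
      rw [vj_one]
      exact (le_sup_right : IntermediateField.adjoin K {jqModC K} ≤ E)
        (IntermediateField.mem_adjoin_simple_self K _)
    have hmem : ∀ d, d ∣ N → vj K (d * p) ∈ E := by
      intro d hd
      have hd0 : d ≠ 0 := by rintro rfl; exact hN0 (zero_dvd_iff.mp hd)
      apply hFE
      rw [← qExpand_vj K p d hd0]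
      exact ⟨vj K d, vj_mem_full K hd0 hd, rfl⟩
    have key : ∀ e, e ∣ N → ¬ p ∣ e → vj K e ∈ E := by
      intro e
      induction e using induction_on_primes with
      | zero => intro h; exact absurd (zero_dvd_iff.mp h) hN0
      | one => intro _ _; exact hjE
      | prime_mul ℓ e hℓ ih =>
        intro h hpe
        have heN : e ∣ N := (Dvd.intro_left ℓ rfl).trans h
        have he0 : e ≠ 0 := by rintro rfl; exact hN0 (zero_dvd_iff.mp heN)
        have hℓN : ℓ ∣ N := (Dvd.intro e rfl).trans h
        have : Fact ℓ.Prime := ⟨hℓ⟩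
        obtain ⟨w, hw⟩ := hroots ℓ hℓ hℓN
        refine gen_step_hom (algebraMap K (AlgebraicClosure K)) hv E hw (a := e)
          (b := ℓ * e * p) (c := ℓ * e) he0
          (mul_ne_zero (mul_ne_zero hℓ.ne_zero he0) hp.out.ne_zero) (by ring) (Or.inr rfl) ?_ ?_
          (ih heN fun h => hpe (h.mul_left ℓ)) (hmem _ h)
        · intro h3
          have h4 : e * 1 = e * ((ℓ * ℓ) * (p * p)) := by rw [mul_one]; nth_rw 1 [h3]; ring
          have h5 := Nat.eq_of_mul_eq_mul_left (Nat.pos_of_ne_zero he0) h4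
          have h6 := hℓ.two_le
          have h7 := hp.out.two_le
          have h8 : 4 ≤ ℓ * ℓ := by nlinarith
          have h9 : 4 ≤ p * p := by nlinarith
          nlinarith
        · intro h3
          have h4 : (e * p) * 1 = (e * p) * (ℓ * ℓ) := by rw [mul_one]; nth_rw 1 [h3]; ring
          have h5 := Nat.eq_of_mul_eq_mul_left (Nat.pos_of_ne_zero
            (mul_ne_zero he0 hp.out.ne_zero)) h4
          nlinarith [hℓ.two_le]
    rw [full_le_iff K hNp]
    intro d hd
    by_cases hpd : p ∣ d
    · obtain ⟨e, rfl⟩ := hpd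
      rw [mul_comm N p] at hd
      rw [mul_comm p e]
      exact hmem e (Nat.dvd_of_mul_dvd_mul_left hp.out.pos hd)
    · have hcop : Nat.Coprime d p := ((Nat.Prime.coprime_iff_not_dvd hp.out).mpr hpd).symm
      exact key d (hcop.dvd_of_dvd_mul_right hd) hpd
  · rw [sup_le_iff]
    refine ⟨full_degeneracyC_map_le K N p, ?_⟩
    rw [IntermediateField.adjoin_le_iff, Set.singleton_subset_iff]
    exact jqModC_mem_full K (N * p)

/-- `j(q^p) ∉ F_N` for `p ∤ N`, over any field. -/
theorem qExpand_jq_notMem_full_field (hN : (N : K) ≠ 0) (hpK : (p : K) ≠ 0) (hpN : ¬ p ∣ N) :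
    qExpand K p (jqModC K) ∉ modularFunctionFieldFullC K N := by
  intro h
  obtain ⟨v, hv⟩ := exists_primitiveRoot_unit hp.out (closure_ne_zero hpK)
  have hN0 : N ≠ 0 := by rintro rfl; simp at hN
  have h1 := coeffMap_mem_full (algebraMap K (AlgebraicClosure K)) h
  rw [coeffMap_qExpand, coeffMap_jqModC] at h1
  exact qExpand_jq_notMem_full hN0 (roots_of_dvd (closure_ne_zero hN)) hv (closure_ne_zero hpK)
    hpN h1

/-- base case over any field -/
theorem qExpand_jq_notMem_field (hpK : (p : K) ≠ 0) :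
    qExpand K p (jqModC K) ∉ IntermediateField.adjoin K {jqModC K} := by
  intro h
  obtain ⟨v, hv⟩ := exists_primitiveRoot_unit hp.out (closure_ne_zero hpK)
  have h1 := coeffMap_mem_adjoin_jq (algebraMap K (AlgebraicClosure K)) h
  rw [coeffMap_qExpand, coeffMap_jqModC] at h1
  exact qExpand_jq_notMem hv (closure_ne_zero hpK) h1

end Gen

section Main

variable {K : Type*} [Field K]

/-- degree of `K(j, j(q^p))` over `K(j)` -/
theorem relfinrank_left_field {p : ℕ} [hp : Fact p.Prime] (hp0 : (p : K) ≠ 0) :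
    IntermediateField.relfinrank (IntermediateField.adjoin K {jqModC K})
      (IntermediateField.adjoin K {jqModC K} ⊔
        IntermediateField.adjoin K {qExpand K p (jqModC K)}) = p + 1 := by
  obtain ⟨v, hv⟩ := exists_primitiveRoot_unit hp.out (closure_ne_zero hp0)
  have hj := IntermediateField.mem_adjoin_simple_self K (jqModC K)
  rw [relfinrank_adjoin_insert _ (isIntegral_of_eval_phi _ p hj (eval_phi_jqR p K)),
    natDegree_minpoly_qExpand_jq_hom (algebraMap K (AlgebraicClosure K)) hv _ hj
      (qExpand_jq_notMem_field hp0)]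

/-- degree of `K(j, j(q^p))` over `K(j(q^p))` -/
theorem relfinrank_right_field {p : ℕ} [hp : Fact p.Prime] (hp0 : (p : K) ≠ 0) :
    IntermediateField.relfinrank (IntermediateField.adjoin K {qExpand K p (jqModC K)})
      (IntermediateField.adjoin K {jqModC K} ⊔
        IntermediateField.adjoin K {qExpand K p (jqModC K)}) = p + 1 := by
  obtain ⟨v, hv⟩ := exists_primitiveRoot_unit hp.out (closure_ne_zero hp0)
  have hVj := IntermediateField.mem_adjoin_simple_self K (qExpand K p (jqModC K))
  rw [sup_comm, relfinrank_adjoin_insert _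
    (isIntegral_of_eval_phi _ p hVj (eval_phi_jqR' p K))]
  refine natDegree_minpoly_jq_hom' (algebraMap K (AlgebraicClosure K)) hv _ ?_ hVj ?_
  · rw [← map_adjoin_jq]
    exact exists_of_mem_map _
  · rw [← map_adjoin_jq]
    exact notMem_map_of_notMem (qExpand_jq_notMem_field hp0)

/-- `[F_{Np} : F_N] = p + 1` for `p ∤ N` -/
theorem relfinrank_full_mul_of_not_dvd_field {N p : ℕ} [hp : Fact p.Prime]
    (hNK : (N : K) ≠ 0) (hpK : (p : K) ≠ 0) (hpN : ¬ p ∣ N) :
    IntermediateField.relfinrank (modularFunctionFieldFullC K N)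
      (modularFunctionFieldFullC K (N * p)) = p + 1 := by
  obtain ⟨v, hv⟩ := exists_primitiveRoot_unit hp.out (closure_ne_zero hpK)
  have hj := jqModC_mem_full K N
  rw [full_mul_prime_of_not_dvd_field hNK hpK hpN,
    relfinrank_adjoin_insert _ (isIntegral_of_eval_phi _ p hj (eval_phi_jqR p K)),
    natDegree_minpoly_qExpand_jq_hom (algebraMap K (AlgebraicClosure K)) hv _ hj
      (qExpand_jq_notMem_full_field hNK hpK hpN)]

/-- `[F_{Np} : V_p(F_N)] = p` for `p ∣ N` -/
theorem relfinrank_map_full_mul_of_dvd_field {N p : ℕ} [hp : Fact p.Prime]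
    (hNK : (N : K) ≠ 0) (hpK : (p : K) ≠ 0) (hpN : p ∣ N) :
    IntermediateField.relfinrank ((modularFunctionFieldFullC K N).map (qExpandAlgHomC K p))
      (modularFunctionFieldFullC K (N * p)) = p := by
  obtain ⟨v, hv⟩ := exists_primitiveRoot_unit hp.out (closure_ne_zero hpK)
  have hVj : qExpand K p (jqModC K) ∈
      (modularFunctionFieldFullC K N).map (qExpandAlgHomC K p) :=
    mem_map_of_mem (jqModC_mem_full K N)
  have hVVj : qExpand K p (qExpand K p (jqModC K)) ∈
      (modularFunctionFieldFullC K N).map (qExpandAlgHomC K p) :=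
    mem_map_of_mem (jqModCd_mem_full K N hpN)
  rw [full_mul_prime_field hNK hpK,
    relfinrank_adjoin_insert _ (isIntegral_of_eval_phi _ p hVj (eval_phi_jqR' p K))]
  exact natDegree_minpoly_jq_hom (algebraMap K (AlgebraicClosure K)) hv _
    (exists_of_mem_map _) hVj hVVj

/-- `V_p V_p j ∉ V_p F_N` for `p ∤ N`; `[F_{Np} : V_p(F_N)] = p + 1` for `p ∤ N` -/
theorem relfinrank_map_full_mul_of_not_dvd_field {N p : ℕ} [hp : Fact p.Prime]
    (hNK : (N : K) ≠ 0) (hpK : (p : K) ≠ 0) (hpN : ¬ p ∣ N) :
    IntermediateField.relfinrank ((modularFunctionFieldFullC K N).map (qExpandAlgHomC K p))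
      (modularFunctionFieldFullC K (N * p)) = p + 1 := by
  obtain ⟨v, hv⟩ := exists_primitiveRoot_unit hp.out (closure_ne_zero hpK)
  have hVj : qExpand K p (jqModC K) ∈
      (modularFunctionFieldFullC K N).map (qExpandAlgHomC K p) :=
    mem_map_of_mem (jqModC_mem_full K N)
  rw [full_mul_prime_field hNK hpK,
    relfinrank_adjoin_insert _ (isIntegral_of_eval_phi _ p hVj (eval_phi_jqR' p K))]
  exact natDegree_minpoly_jq_hom' (algebraMap K (AlgebraicClosure K)) hv _
    (exists_of_mem_map _) hVj
    (notMem_map_of_notMem (qExpand_jq_notMem_full_field hNK hpK hpN))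

theorem relfinrank_step_of_not_dvd_field {N p : ℕ} [hp : Fact p.Prime]
    (hNK : (N : K) ≠ 0) (hpK : (p : K) ≠ 0) (hpN : ¬ p ∣ N) :
    IntermediateField.relfinrank (IntermediateField.adjoin K {jqModC K})
      (modularFunctionFieldFullC K (N * p)) =
    (p + 1) * IntermediateField.relfinrank (IntermediateField.adjoin K {jqModC K})
      (modularFunctionFieldFullC K N) := by
  have hN0 : N ≠ 0 := by rintro rfl; simp at hNK
  have : NeZero N := ⟨hN0⟩
  have : NeZero (N * p) := ⟨mul_ne_zero hN0 hp.out.ne_zero⟩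
  rw [← IntermediateField.relfinrank_mul_relfinrank (adjoin_jq_le_full N)
    (full_degeneracyC_le K (Dvd.intro p rfl)),
    relfinrank_full_mul_of_not_dvd_field hNK hpK hpN, mul_comm]

theorem relfinrank_step_of_dvd_field {N p : ℕ} [hp : Fact p.Prime]
    (hNK : (N : K) ≠ 0) (hpK : (p : K) ≠ 0) (hpN : p ∣ N) :
    IntermediateField.relfinrank (IntermediateField.adjoin K {jqModC K})
      (modularFunctionFieldFullC K (N * p)) =
    p * IntermediateField.relfinrank (IntermediateField.adjoin K {jqModC K})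
      (modularFunctionFieldFullC K N) := by
  have hN : N ≠ 0 := by rintro rfl; simp at hNK
  have : NeZero N := ⟨hN⟩
  have : NeZero (N * p) := ⟨mul_ne_zero hN hp.out.ne_zero⟩
  have hG : IntermediateField.adjoin K {jqModC K} ⊔
      IntermediateField.adjoin K {qExpand K p (jqModC K)} ≤
      modularFunctionFieldFullC K (N * p) := by
    rw [sup_le_iff]
    refine ⟨adjoin_jq_le_full _, ?_⟩
    rw [IntermediateField.adjoin_le_iff, Set.singleton_subset_iff]
    exact jqModCd_mem_full K (N * p) (Dvd.intro_left N rfl)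
  have h1 := IntermediateField.relfinrank_mul_relfinrank (le_sup_left :
    IntermediateField.adjoin K {jqModC K} ≤ _) hG
  have h2 := IntermediateField.relfinrank_mul_relfinrank (le_sup_right :
    IntermediateField.adjoin K {qExpand K p (jqModC K)} ≤ _) hG
  rw [relfinrank_left_field hpK] at h1
  rw [relfinrank_right_field hpK] at h2
  have h3 := IntermediateField.relfinrank_mul_relfinrank
    (IntermediateField.map_mono (qExpandAlgHomC K p) (adjoin_jq_le_full (K := K) N))
    (full_degeneracyC_map_le K N p)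
  rw [IntermediateField.relfinrank_map_map, relfinrank_map_full_mul_of_dvd_field hNK hpK hpN,
    map_adjoin_jq] at h3
  rw [← h1, h2, ← h3, mul_comm]

end Main

/-- **Degree theorem**: `[F_N : K(j)] = ψ(N)` for any field `K` in which `N ≠ 0`. -/
theorem relfinrank_full (K : Type*) [Field K] (N : ℕ) [NeZero N] (hN : (N : K) ≠ 0) :
    IntermediateField.relfinrank (IntermediateField.adjoin K {jqModC K})
      (modularFunctionFieldFullC K N) = dedekindPsi N := by
  have hN0 : N ≠ 0 := NeZero.ne N
  induction N using induction_on_primes with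
  | zero => exact absurd rfl hN0
  | one =>
    rw [dedekindPsi_one, IntermediateField.relfinrank_eq_one_iff, full_le_iff K one_ne_zero]
    intro d hd
    rw [Nat.dvd_one.mp hd, vj_one]
    exact IntermediateField.mem_adjoin_simple_self K _
  | prime_mul p N hp ih =>
    have : Fact p.Prime := ⟨hp⟩
    have hN1 : N ≠ 0 := right_ne_zero_of_mul hN0
    rw [mul_comm p N] at hN ⊢
    rw [Nat.cast_mul] at hN
    have hNK : (N : K) ≠ 0 := left_ne_zero_of_mul hN
    have hpK : (p : K) ≠ 0 := right_ne_zero_of_mul hN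
    by_cases hpN : p ∣ N
    · rw [relfinrank_step_of_dvd_field hNK hpK hpN, ih hNK hN1, psi_mul_prime_of_dvd hN1 hp hpN]
    · rw [relfinrank_step_of_not_dvd_field hNK hpK hpN, ih hNK hN1,
        psi_mul_prime_of_not_dvd hp hpN]

end Fermat.Agent.ModDeg
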