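import Mathlib
import Fermat.Agent.ModDeg.General

/-!
# Extending embeddings of modular function fields by one prime
-/

set_option autoImplicit false

noncomputable section

open ModularCurve Fermat.Agent.ModPoly Polynomial
open scoped IntermediateField

namespace Fermat.Agent.ModDeg

section General

variable {K L Ω : Type*} [Field K] [Field L] [Field Ω] [Algebra K L]

/-- Extension of a ring hom from `E` to `E(x)`. -/
theorem exists_extend (E : IntermediateField K L) {x : L} {f : E[X]} (hf : f.Monic)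
    (hfx : aeval x f = 0) (hdeg : f.natDegree = (minpoly E x).natDegree)
    (F : IntermediateField K L) (hF : F = E ⊔ K⟮x⟯) (τ : E →+* Ω) {y : Ω}
    (hy : (f.map τ).eval y = 0) :
    ∃ (σ : F →+* Ω) (hx : x ∈ F), (∀ e (he : e ∈ E) (he' : e ∈ F), σ ⟨e, he'⟩ = τ ⟨e, he⟩) ∧
      σ ⟨x, hx⟩ = y := by
  have hint : IsIntegral E x := ⟨f, hf, hfx⟩
  have hmin : f = minpoly E x :=
    Polynomial.eq_of_monic_of_dvd_of_natDegree_le (minpoly.monic hint) hf
      (minpoly.dvd _ _ hfx) hdeg.le
  have hFE : F = E⟮x⟯.restrictScalars K := by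
    rw [hF, IntermediateField.restrictScalars_adjoin]
    apply le_antisymm
    · rw [sup_le_iff]
      constructor
      · intro y hy
        exact IntermediateField.subset_adjoin _ _ (Or.inl hy)
      · exact IntermediateField.adjoin.mono _ _ _ (by simp)
    · rw [IntermediateField.adjoin_le_iff, Set.union_subset_iff]
      constructor
      · intro y hy
        exact (le_sup_left : E ≤ _) hy
      · rw [Set.singleton_subset_iff]
        exact (le_sup_right : IntermediateField.adjoin K {x} ≤ _)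
          (IntermediateField.mem_adjoin_simple_self K x)
  subst hFE
  let _ : Algebra E Ω := τ.toAlgebra
  have hy' : y ∈ (minpoly E x).aroots Ω := by
    rw [Polynomial.mem_aroots]
    refine ⟨minpoly.ne_zero hint, ?_⟩
    rw [← hmin, Polynomial.aeval_def, ← Polynomial.eval_map]
    exact hy
  let σ : E⟮x⟯ →ₐ[E] Ω := (IntermediateField.algHomAdjoinIntegralEquiv E hint).symm ⟨y, hy'⟩
  have hσx : σ (IntermediateField.AdjoinSimple.gen E x) = y :=
    IntermediateField.algHomAdjoinIntegralEquiv_symm_apply_gen E hint ⟨y, hy'⟩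
  refine ⟨(σ : E⟮x⟯ →+* Ω), IntermediateField.mem_adjoin_simple_self E x, ?_, hσx⟩
  intro e he he'
  exact σ.commutes ⟨e, he⟩

end General

section Gen3

variable {K : Type*} [Field K] {m k p : ℕ} [hp : Fact p.Prime]

/-- (Gen3) `F_{Np}` is generated over `F_N` by `j(q^{p^{k+1}})`, `N = p^k m`, `p ∤ m`. -/
theorem full_mul_prime_pow (hm : (m : K) ≠ 0) (hpK : (p : K) ≠ 0) (hpm : ¬ p ∣ m) :
    modularFunctionFieldFullC K (p ^ (k + 1) * m) =
      modularFunctionFieldFullC K (p ^ k * m) ⊔ K⟮vj K (p ^ (k + 1))⟯ := by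
  have hm0 : m ≠ 0 := by rintro rfl; simp at hm
  have hp0 : p ≠ 0 := hp.out.ne_zero
  have hpos : ∀ i, p ^ i ≠ 0 := fun i => pow_ne_zero i hp0
  have : NeZero (p ^ k * m) := ⟨mul_ne_zero (hpos k) hm0⟩
  have : NeZero (p ^ (k + 1) * m) := ⟨mul_ne_zero (hpos _) hm0⟩
  obtain ⟨v, hv⟩ := exists_primitiveRoot_unit hp.out (closure_ne_zero hpK)
  have hroots := roots_of_dvd (closure_ne_zero hm)
  apply le_antisymm
  · set E := modularFunctionFieldFullC K (p ^ k * m) ⊔ K⟮vj K (p ^ (k + 1))⟯ with hE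
    have hFE : modularFunctionFieldFullC K (p ^ k * m) ≤ E := le_sup_left
    have hpE : vj K (p ^ (k + 1)) ∈ E :=
      (le_sup_right : K⟮vj K (p ^ (k + 1))⟯ ≤ E) (IntermediateField.mem_adjoin_simple_self K _)
    have key : ∀ e, e ∣ m → vj K (p ^ (k + 1) * e) ∈ E := by
      intro e
      induction e using induction_on_primes with
      | zero => intro h; exact absurd (zero_dvd_iff.mp h) hm0
      | one => intro _; rwa [mul_one]
      | prime_mul ℓ e hℓ ih =>
        intro h
        have hem : e ∣ m := (Dvd.intro_left ℓ rfl).trans h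
        have he0 : e ≠ 0 := by rintro rfl; exact hm0 (zero_dvd_iff.mp hem)
        have hℓm : ℓ ∣ m := (Dvd.intro e rfl).trans h
        have : Fact ℓ.Prime := ⟨hℓ⟩
        obtain ⟨w, hw⟩ := hroots ℓ hℓ hℓm
        have hne : p ≠ ℓ := by rintro rfl; exact hpm hℓm
        refine gen_step_hom (algebraMap K (AlgebraicClosure K)) hv E hw
          (a := p ^ (k + 1) * e) (b := p ^ k * (ℓ * e)) (mul_ne_zero (hpos _) he0)
          (mul_ne_zero (hpos _) (mul_ne_zero hℓ.ne_zero he0)) (by ring)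
          (Or.inl (by ring)) ?_ ?_ (ih hem)
          (hFE (vj_mem_full K (mul_ne_zero (hpos _) (mul_ne_zero hℓ.ne_zero he0))
            (mul_dvd_mul_left _ h)))
        · intro h3
          have h4 : (p ^ (k + 1) * e) * 1 = (p ^ (k + 1) * e) * (ℓ * ℓ) := by
            rw [mul_one]; nth_rw 1 [h3]; ring
          have h5 := Nat.eq_of_mul_eq_mul_left (Nat.pos_of_ne_zero
            (mul_ne_zero (hpos _) he0)) h4
          nlinarith [hℓ.two_le]
        · intro h3
          have h4 : (p ^ k * e) * (p ^ 2) = (p ^ k * e) * (ℓ ^ 2) := by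
            have e1 : p ^ k * e * p ^ 2 = p ^ (k + 1) * e * p := by ring
            rw [e1, h3]
            ring
          have h5 := Nat.eq_of_mul_eq_mul_left (Nat.pos_of_ne_zero
            (mul_ne_zero (hpos _) he0)) h4
          exact hne (Nat.pow_left_injective two_ne_zero h5)
    rw [full_le_iff K (mul_ne_zero (hpos _) hm0)]
    intro d hd
    by_cases hpd : p ^ (k + 1) ∣ d
    · obtain ⟨e, rfl⟩ := hpd
      exact key e (Nat.dvd_of_mul_dvd_mul_left (Nat.pos_of_ne_zero (hpos _)) hd)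
    · have hd0 : d ≠ 0 := by
        rintro rfl
        exact mul_ne_zero (hpos _) hm0 (zero_dvd_iff.mp hd)
      refine hFE (vj_mem_full K hd0 ?_)
      -- `d ∣ p^k m`
      obtain ⟨a, b, hb, rfl⟩ := Nat.exists_eq_pow_mul_and_not_dvd hd0 p hp.out.ne_one
      have hcop : Nat.Coprime b (p ^ (k + 1)) :=
        (Nat.Coprime.pow_left (k + 1) ((Nat.Prime.coprime_iff_not_dvd hp.out).mpr hb)).symm
      have hbm : b ∣ m := hcop.dvd_of_dvd_mul_left ((Dvd.intro_left _ rfl).trans hd)
      have hak : a ≤ k := by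
        by_contra h
        push Not at h
        exact hpd ((pow_dvd_pow p h).trans (Dvd.intro _ rfl))
      exact mul_dvd_mul (pow_dvd_pow p hak) hbm
  · rw [sup_le_iff]
    refine ⟨full_degeneracyC_le K (mul_dvd_mul_right (pow_dvd_pow p k.le_succ) m), ?_⟩
    rw [IntermediateField.adjoin_le_iff, Set.singleton_subset_iff]
    exact vj_mem_full K (hpos _) (Dvd.intro _ rfl)

variable (K) in
/-- degree of `F_{Np}` over `F_N` for `p ∣ N` -/
theorem relfinrank_full_mul_of_dvd_field {N : ℕ}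
    (hNK : (N : K) ≠ 0) (hpN : p ∣ N) :
    IntermediateField.relfinrank (modularFunctionFieldFullC K N)
      (modularFunctionFieldFullC K (N * p)) = p := by
  have hN0 : N ≠ 0 := by rintro rfl; simp at hNK
  have hpK : (p : K) ≠ 0 := by
    intro h
    obtain ⟨m, rfl⟩ := hpN
    rw [Nat.cast_mul, h, zero_mul] at hNK
    exact hNK rfl
  have : NeZero N := ⟨hN0⟩
  have : NeZero (N * p) := ⟨mul_ne_zero hN0 hp.out.ne_zero⟩
  have h1 := IntermediateField.relfinrank_mul_relfinrank (adjoin_jq_le_full (K := K) N)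
    (full_degeneracyC_le K (Dvd.intro p rfl : N ∣ N * p))
  rw [relfinrank_full K N hNK, relfinrank_full K (N * p)
    (by rw [Nat.cast_mul]; exact mul_ne_zero hNK hpK), psi_mul_prime_of_dvd hN0 hp.out hpN,
    mul_comm] at h1
  exact Nat.eq_of_mul_eq_mul_right (psi_pos hN0) h1

end Gen3

section Ext

variable {K Ω : Type*} [Field K] [Field Ω] {m k p : ℕ} [hp : Fact p.Prime]

/-- Extension of embeddings, `p ∤ N`. -/
theorem exists_extend_full_of_not_dvd (hm : (m : K) ≠ 0) (hpK : (p : K) ≠ 0) (hpm : ¬ p ∣ m)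
    (τ : modularFunctionFieldFullC K m →+* Ω) {y : Ω}
    (hy : (phi p (τ ⟨jqModC K, jqModC_mem_full K m⟩)).eval y = 0) :
    ∃ σ : modularFunctionFieldFullC K (p * m) →+* Ω,
      (∀ e (he : e ∈ modularFunctionFieldFullC K m) (he' : e ∈ modularFunctionFieldFullC K (p * m)),
        σ ⟨e, he'⟩ = τ ⟨e, he⟩) ∧
      ∀ h : vj K p ∈ modularFunctionFieldFullC K (p * m), σ ⟨vj K p, h⟩ = y := by
  obtain ⟨v, hv⟩ := exists_primitiveRoot_unit hp.out (closure_ne_zero hpK)
  have hj := jqModC_mem_full K m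
  have hroot : (phi p (jqModC K)).eval (vj K p) = 0 := by rw [vj_eq]; exact eval_phi_jqR p K
  have hF : modularFunctionFieldFullC K (p * m) =
      modularFunctionFieldFullC K m ⊔ K⟮vj K p⟯ := by
    have := full_mul_prime_pow (K := K) (k := 0) hm hpK hpm
    simpa using this
  have hdeg : (minpoly (modularFunctionFieldFullC K m) (vj K p)).natDegree = p + 1 := by
    rw [vj_eq]
    exact natDegree_minpoly_qExpand_jq_hom (algebraMap K (AlgebraicClosure K)) hv _ hj
      (qExpand_jq_notMem_full_field hm hpK hpm)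
  obtain ⟨σ, hx, h1, h2⟩ := exists_extend (modularFunctionFieldFullC K m) (x := vj K p)
    (f := phi p (⟨jqModC K, hj⟩ : modularFunctionFieldFullC K m)) (phi_monic p _)
    (by rw [aeval_phi_intermediate, hroot]) (by rw [phi_natDegree, hdeg]) _ hF τ (y := y)
    (by rw [phi_map]; exact hy)
  exact ⟨σ, h1, fun h => h2⟩

local notation "E'" => modularFunctionFieldFullC K (p ^ (k + 1) * m)

/-- Extension of embeddings, `p ∣ N`. -/
theorem exists_extend_full_of_dvd (hm : (m : K) ≠ 0) (hpK : (p : K) ≠ 0) (hpm : ¬ p ∣ m)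
    (τ : modularFunctionFieldFullC K (p ^ (k + 1) * m) →+* Ω) {y : Ω}
    (hk1 : vj K (p ^ (k + 1)) ∈ modularFunctionFieldFullC K (p ^ (k + 1) * m))
    (hk : vj K (p ^ k) ∈ modularFunctionFieldFullC K (p ^ (k + 1) * m))
    (hy : (phi p (τ ⟨vj K (p ^ (k + 1)), hk1⟩)).eval y = 0) (hyne : y ≠ τ ⟨vj K (p ^ k), hk⟩) :
    ∃ σ : modularFunctionFieldFullC K (p ^ (k + 2) * m) →+* Ω,
      (∀ e (he : e ∈ modularFunctionFieldFullC K (p ^ (k + 1) * m))
        (he' : e ∈ modularFunctionFieldFullC K (p ^ (k + 2) * m)), σ ⟨e, he'⟩ = τ ⟨e, he⟩) ∧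
      ∀ h : vj K (p ^ (k + 2)) ∈ modularFunctionFieldFullC K (p ^ (k + 2) * m),
        σ ⟨vj K (p ^ (k + 2)), h⟩ = y := by
  have hm0 : m ≠ 0 := by rintro rfl; simp at hm
  have hp0 : p ≠ 0 := hp.out.ne_zero
  have hpos : ∀ i, p ^ i ≠ 0 := fun i => pow_ne_zero i hp0
  have hNK : ((p ^ (k + 1) * m : ℕ) : K) ≠ 0 := by
    push_cast
    exact mul_ne_zero (pow_ne_zero _ hpK) hm
  have hroot : (phi p (vj K (p ^ (k + 1)))).eval (vj K (p ^ (k + 2))) = 0 :=
    eval_phi_vjR (hpos _) (by ring)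
  have hroot' : (phi p (vj K (p ^ (k + 1)))).eval (vj K (p ^ k)) = 0 :=
    eval_phi_vjR' (hpos _) (by ring)
  have hF := full_mul_prime_pow (K := K) (k := k + 1) hm hpK hpm
  have hint : IsIntegral E' (vj K (p ^ (k + 2))) := isIntegral_of_eval_phi E' p hk1 hroot
  have hdeg : (minpoly E' (vj K (p ^ (k + 2)))).natDegree = p := by
    rw [← relfinrank_adjoin_insert E' hint, ← hF]
    have h1 := relfinrank_full_mul_of_dvd_field K (p := p) hNK
      ((dvd_pow_self p (Nat.succ_ne_zero k)).mul_right m)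
    have h2 : p ^ (k + 1) * m * p = p ^ (k + 2) * m := by ring
    rw [h2] at h1
    exact h1
  -- divide `Φ_p` by the known root
  have hrootE : (phi p (⟨vj K (p ^ (k + 1)), hk1⟩ : E')).IsRoot (⟨vj K (p ^ k), hk⟩ : E') := by
    rw [Polynomial.IsRoot]
    apply (algebraMap E' (LaurentSeries K)).injective
    rw [map_zero, ← Polynomial.eval₂_hom, ← Polynomial.eval_map, map_phi_intermediate]
    exact hroot'
  obtain ⟨Q, hQ⟩ := Polynomial.dvd_iff_isRoot.mpr hrootE
  have hmonic := phi_monic p (⟨vj K (p ^ (k + 1)), hk1⟩ : E')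
  have hQm : Q.Monic := (Polynomial.monic_X_sub_C _).of_mul_monic_left (hQ ▸ hmonic)
  have hdegΦ := phi_natDegree p (⟨vj K (p ^ (k + 1)), hk1⟩ : E')
  rw [hQ, Polynomial.natDegree_mul (Polynomial.X_sub_C_ne_zero _) hQm.ne_zero,
    Polynomial.natDegree_X_sub_C] at hdegΦ
  have hne : vj K (p ^ (k + 2)) ≠ vj K (p ^ k) := by
    have h0 : NeZero (p ^ k) := ⟨hpos _⟩
    have h2 : NeZero (p ^ (k + 2)) := ⟨hpos _⟩
    rw [vj_eq, vj_eq]
    intro h
    have h1 := congrArg HahnSeries.order h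
    rw [order_qExpand, order_qExpand, order_jqModC] at h1
    have h3 : p ^ (k + 2) = p ^ k := by
      have : ((p ^ (k + 2) : ℕ) : ℤ) = ((p ^ k : ℕ) : ℤ) := by linarith
      exact_mod_cast this
    exact absurd (Nat.pow_right_injective hp.out.two_le h3) (by omega)
  have hQroot : aeval (vj K (p ^ (k + 2))) Q = 0 := by
    have h1 : aeval (vj K (p ^ (k + 2))) (phi p (⟨vj K (p ^ (k + 1)), hk1⟩ : E')) = 0 := by
      rw [aeval_phi_intermediate]; exact hroot
    rw [hQ, map_mul] at h1
    refine (mul_eq_zero.mp h1).resolve_left ?_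
    rw [map_sub, aeval_X, aeval_C]
    exact sub_ne_zero.mpr hne
  have hyQ : (Q.map τ).eval y = 0 := by
    rw [← phi_map, hQ, Polynomial.map_mul, Polynomial.eval_mul] at hy
    refine (mul_eq_zero.mp hy).resolve_left ?_
    rw [Polynomial.map_sub, Polynomial.map_X, Polynomial.map_C, Polynomial.eval_sub,
      Polynomial.eval_X, Polynomial.eval_C]
    exact sub_ne_zero.mpr hyne
  obtain ⟨σ, hx, h1, h2⟩ := exists_extend E' (x := vj K (p ^ (k + 2))) (f := Q) hQm hQroot
    (by omega) _ hF τ hyQ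
  exact ⟨σ, h1, fun h => h2⟩

end Ext

end Fermat.Agent.ModDeg
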