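import Mathlib
import Fermat.Agent.ModDeg.Ext

/-!
# `F_N / K(j)` is separable when `N` is invertible in `K`
-/

set_option autoImplicit false

noncomputable section

open ModularCurve Fermat.Agent.ModPoly Polynomial
open scoped IntermediateField

namespace Fermat.Agent.ModDeg

section Poly

variable {K : Type*} [Field K] {ℓ : ℕ} [hℓ : Fact ℓ.Prime]

/-- `Φ_ℓ(X, j(q^e))` is separable when `ℓ ≠ 0` in `K`. -/
theorem separable_phi_vj (hℓK : (ℓ : K) ≠ 0) {e : ℕ} (he : e ≠ 0) :
    (phi ℓ (vj K e)).Separable := by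
  obtain ⟨w, hw⟩ := exists_primitiveRoot_unit hℓ.out (closure_ne_zero hℓK)
  have he' : (0 : ℚ) < e := by exact_mod_cast Nat.pos_of_ne_zero he
  rw [← Polynomial.separable_map ((hs 1 one_pos 1).comp
    (coeffMap (algebraMap K (AlgebraicClosure K)))), phi_map, RingHom.comp_apply, coeffMap_vj,
    hs_vj he he', phi_hs hw (one_pow ℓ), Polynomial.separable_prod_X_sub_C_iff]
  exact hs_jT_injective (hr := he') hw

/-- one step of separability -/
theorem isSeparable_of_eval_phi {A B : Type*} [Field A] [Field B] [Algebra A B] {x y : B}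
    (hy : IsSeparable A y) (h : (phi ℓ y).eval x = 0) (hsep : (phi ℓ y).Separable) :
    IsSeparable A x := by
  have hAE : Algebra.IsSeparable A A⟮y⟯ :=
    (IntermediateField.isSeparable_adjoin_simple_iff_isSeparable A B).mpr hy
  have hsep' : (phi ℓ (⟨y, IntermediateField.mem_adjoin_simple_self A y⟩ : A⟮y⟯)).Separable := by
    rw [← Polynomial.separable_map (algebraMap A⟮y⟯ B), phi_map]
    exact hsep
  have hx : IsSeparable A⟮y⟯ x := by
    refine hsep'.of_dvd (minpoly.dvd _ _ ?_)
    rw [Polynomial.aeval_def, ← Polynomial.eval_map, phi_map]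
    exact h
  exact IsSeparable.of_algebra_isSeparable_of_isSeparable A hx

end Poly

section Abstract

variable {K L : Type*} [Field K] [Field L] [Algebra K L]

/-- A subfield of `K(S)` containing `K` and `S` is everything. -/
theorem subfield_adjoin_eq_top (S : Set L) (T : Subfield (IntermediateField.adjoin K S))
    (hK : ∀ c : K, algebraMap K (IntermediateField.adjoin K S) c ∈ T)
    (hS : ∀ x (hx : x ∈ S), (⟨x, IntermediateField.subset_adjoin K S hx⟩ :
      IntermediateField.adjoin K S) ∈ T) : T = ⊤ := by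
  rw [eq_top_iff]
  rintro ⟨x, hx⟩ -
  induction hx using IntermediateField.adjoin_induction with
  | mem x hx => exact hS x hx
  | algebraMap x => exact hK x
  | add x y hx hy h1 h2 => exact add_mem h1 h2
  | inv x hx h1 => exact inv_mem h1
  | mul x y hx hy h1 h2 => exact mul_mem h1 h2

end Abstract

section Inside

variable (K : Type*) [Field K] (N : ℕ)

/-- `j` as an element of `F_N` -/
def jFull' : modularFunctionFieldFullC K N := ⟨jqModC K, jqModC_mem_full K N⟩

variable {N}

/-- `j(q^d)` as an element of `F_N` -/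
def vjF (hN : N ≠ 0) (d : ℕ) (hd : d ∣ N) : modularFunctionFieldFullC K N :=
  ⟨vj K d, vj_mem_full K (by rintro rfl; exact hN (zero_dvd_iff.mp hd)) hd⟩

theorem isSeparable_vjF (hN : N ≠ 0) (hNK : (N : K) ≠ 0) (d : ℕ) (hd : d ∣ N) :
    IsSeparable K⟮jFull' K N⟯ (vjF K hN d hd) := by
  induction d using induction_on_primes with
  | zero => exact absurd (zero_dvd_iff.mp hd) hN
  | one =>
    have h1 : vjF K hN 1 hd = algebraMap K⟮jFull' K N⟯ (modularFunctionFieldFullC K N)
        ⟨jFull' K N, IntermediateField.mem_adjoin_simple_self K _⟩ :=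
      Subtype.ext (vj_one K)
    rw [h1]
    exact isSeparable_algebraMap _
  | prime_mul ℓ e hℓ ih =>
    have : Fact ℓ.Prime := ⟨hℓ⟩
    have heN : e ∣ N := (Dvd.intro_left ℓ rfl).trans hd
    have hℓN : ℓ ∣ N := (Dvd.intro e rfl).trans hd
    have he0 : e ≠ 0 := by rintro rfl; exact hN (zero_dvd_iff.mp heN)
    have hℓK : (ℓ : K) ≠ 0 := by
      intro h
      obtain ⟨m, rfl⟩ := hℓN
      rw [Nat.cast_mul, h, zero_mul] at hNK
      exact hNK rfl
    refine isSeparable_of_eval_phi (ℓ := ℓ) (ih heN) ?_ ?_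
    · apply (algebraMap (modularFunctionFieldFullC K N) (LaurentSeries K)).injective
      rw [map_zero, ← Polynomial.eval₂_hom, ← Polynomial.eval_map, phi_map]
      exact eval_phi_vjR he0 (mul_comm _ _)
    · rw [← Polynomial.separable_map
        (algebraMap (modularFunctionFieldFullC K N) (LaurentSeries K)), phi_map]
      exact separable_phi_vj hℓK he0

/-- A subfield of `F_N` containing `K` and the `j(q^d)` is everything. -/
theorem subfield_eq_top (hN : N ≠ 0) (T : Subfield (modularFunctionFieldFullC K N))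
    (hK : ∀ c : K, algebraMap K (modularFunctionFieldFullC K N) c ∈ T)
    (hv : ∀ d (hd : d ∣ N), vjF K hN d hd ∈ T) : T = ⊤ := by
  refine subfield_adjoin_eq_top _ T hK ?_
  rintro x ⟨d, hd0, hd, rfl⟩
  have h1 := hv d hd
  have h2 : vjF K hN d hd = ⟨qExpand K d (jqModC K),
    IntermediateField.subset_adjoin _ _ ⟨d, hd0, hd, rfl⟩⟩ := Subtype.ext (vj_eq K d)
  rwa [h2] at h1

/-- **Separability** of `F_N / K(j)`, inside `F_N`. -/
theorem isSeparable_full_inside (N : ℕ) [hN : NeZero N] (hNK : (N : K) ≠ 0) :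
    Algebra.IsSeparable K⟮jFull' K N⟯ (modularFunctionFieldFullC K N) := by
  rw [← separableClosure.eq_top_iff]
  have h := subfield_eq_top K hN.out
    (separableClosure K⟮jFull' K N⟯ (modularFunctionFieldFullC K N)).toSubfield
    (fun c => (separableClosure K⟮jFull' K N⟯ (modularFunctionFieldFullC K N)).algebraMap_mem
      (algebraMap K K⟮jFull' K N⟯ c))
    (fun d hd => mem_separableClosure_iff.mpr (isSeparable_vjF K hN.out hNK d hd))
  rw [eq_top_iff]
  intro x _
  have hx : x ∈ (⊤ : Subfield (modularFunctionFieldFullC K N)) := Subfield.mem_top x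
  rw [← h] at hx
  exact hx

end Inside

section Outside

variable (K : Type*) [Field K] {N : ℕ}

theorem isSeparable_vj (hN : N ≠ 0) (hNK : (N : K) ≠ 0) (d : ℕ) (hd : d ∣ N) :
    IsSeparable K⟮jqModC K⟯ (vj K d) := by
  induction d using induction_on_primes with
  | zero => exact absurd (zero_dvd_iff.mp hd) hN
  | one =>
    have h1 : vj K 1 = algebraMap K⟮jqModC K⟯ (LaurentSeries K)
        ⟨jqModC K, IntermediateField.mem_adjoin_simple_self K _⟩ := vj_one K
    rw [h1]
    exact isSeparable_algebraMap _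
  | prime_mul ℓ e hℓ ih =>
    have : Fact ℓ.Prime := ⟨hℓ⟩
    have heN : e ∣ N := (Dvd.intro_left ℓ rfl).trans hd
    have hℓN : ℓ ∣ N := (Dvd.intro e rfl).trans hd
    have he0 : e ≠ 0 := by rintro rfl; exact hN (zero_dvd_iff.mp heN)
    have hℓK : (ℓ : K) ≠ 0 := by
      intro h
      obtain ⟨m, rfl⟩ := hℓN
      rw [Nat.cast_mul, h, zero_mul] at hNK
      exact hNK rfl
    exact isSeparable_of_eval_phi (ℓ := ℓ) (ih heN) (eval_phi_vjR he0 (mul_comm _ _))
      (separable_phi_vj hℓK he0)

/-- **Separability** of `F_N / K(j)`, inside the Laurent series. -/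
theorem isSeparable_full (N : ℕ) [hN : NeZero N] (hNK : (N : K) ≠ 0) {x : LaurentSeries K}
    (hx : x ∈ modularFunctionFieldFullC K N) : IsSeparable K⟮jqModC K⟯ x := by
  have h2 : modularFunctionFieldFullC K N ≤
      (separableClosure K⟮jqModC K⟯ (LaurentSeries K)).restrictScalars K := by
    rw [full_le_iff K hN.out]
    exact fun d hd => mem_separableClosure_iff.mpr (isSeparable_vj K hN.out hNK d hd)
  exact mem_separableClosure_iff.mp (h2 hx)

end Outside

end Fermat.Agent.ModDeg
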